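import Fermat.Agent.MR.Field.InterfaceA

/-!
# MR / Field : assembly of block A (`Stmt_AOut`)
-/

set_option autoImplicit false
set_option synthInstance.maxHeartbeats 400000

noncomputable section

namespace Fermat.Agent.MR.Field

open ModularCurve AlgebraicCurve
open Fermat.Agent.S24 (Qbar FF)
open Fermat.Agent.ES.Mid (GQ gal IsDiv)
open Fermat.Agent.INJ (RedData)
open Fermat.Agent.INJ.Inst (kA)
open Fermat.Agent.ORD.Dep (cst rd GO Cg InW ActsMu FixF FixK Lvl)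
open Fermat.Agent.BR.Inst (IsGaussS twist)

theorem aOut (h1 : Stmt_GtLvl) (h3 : Stmt_Dicho) (h4 : Stmt_VG) (h5 : Stmt_Roots) (h6 : Stmt_FD)
    (hB : Stmt_Bridge) (hT : Stmt_TwistVal) : Stmt_AOut := by
  intro p hp hp5 A hA N _ L D hG W hW β d₀ hP
  have hp2 : p ≠ 2 := by omega
  have hp0 : (p : Qbar) ≠ 0 := Nat.cast_ne_zero.2 hp.ne_zero
  rcases h3 p hp hp2 A hA β d₀ hP with hfix | ⟨σ, hσ, ζ, hζ, hσβ, hval⟩
  · have : NeZero p := ⟨hp.ne_zero⟩
    obtain ⟨ζ, hζ⟩ : ∃ ζ : Qbar, IsPrimitiveRoot ζ p :=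
      HasEnoughRootsOfUnity.exists_primitiveRoot Qbar p
    obtain ⟨hl, hv⟩ := h1 p hp hp2 A hA ζ hζ
    exact ⟨ζ, hζ, hl, hv, Or.inl hfix⟩
  · obtain ⟨hl, hv⟩ := h1 p hp hp2 A hA ζ hζ
    have hpow : β ^ p = 1 + (p : Qbar) * ((d₀ - 1) / (p : Qbar)) := by
      rw [hP.pow]; field_simp; ring
    have hiso := (hB N A L D hG).2.2.2.1
    have hg1 : PL.Gauss A D.O := by
      have := PL.Gauss.ofRedData D
      rwa [hG.gauss.hA] at this
    have hg2 : PL.Gauss A (twist D W).O := by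
      have := PL.Gauss.ofRedData (twist D W)
      rwa [Fermat.Agent.BR.Inst.twist_A, hG.gauss.hA] at this
    refine ⟨ζ, hζ, hl, hv, Or.inr ⟨σ, hσ, (d₀ - 1) / (p : Qbar), ?_, ?_, ?_⟩⟩
    · exact h6 p hp hp2 A hA N D.O hg1 hiso β ζ _ σ hσ hζ hσβ hpow hval
        (fun x hx hfx => h4 A (Gt A p) (1 - ζ) hl N L D hG x hx hfx)
    · refine h6 p hp hp2 A hA N (twist D W).O hg2 ?_ β ζ _ σ hσ hζ hσβ hpow hval ?_
      · intro s hs x
        rw [(hT Qbar (FF N) (kA A) L D W (gal N s x) x).2.2, hW]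
        exact hiso s hs (W x)
      · intro x hx hfx
        have hWx : W x ≠ 0 := (map_ne_zero W).2 hx
        have hWf : FixF N (Gt A p) (W x) := fun s hs => by rw [← hW, hfx s hs]
        obtain ⟨m, hm⟩ := h4 A (Gt A p) (1 - ζ) hl N L D hG (W x) hWx hWf
        refine ⟨m, ?_⟩
        rw [← map_zpow₀, (hT Qbar (FF N) (kA A) L D W x _).2.2, hm, map_zpow₀ W,
          AlgEquiv.commutes, map_zpow₀]
    · exact h5 p hp A hA N (Hb A p β) ((Hb_le_Gt A p β).trans (Gt_le_inertia A p))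

end Fermat.Agent.MR.Field

end
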