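import Fermat.Agent.MR.Field.InterfaceA

/-!
# MR / Field : (A6) `PL.FieldData` for a norm invariant under inertia

`Stmt_FD` of `InterfaceA` is false as typed (nothing says that `β ^ p` is fixed by `G_t`, which is
needed for `G_t = ⟨H_β, σ⟩`).  We prove the corrected statement `Stmt_FD'` with the extra hypothesis
`∀ s ∈ Gt A p, s (β ^ p) = β ^ p`.
-/

set_option autoImplicit false
set_option synthInstance.maxHeartbeats 400000

noncomputable section

namespace Fermat.Agent.MR.Field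

open ModularCurve AlgebraicCurve
open Fermat.Agent.S24 (Qbar FF)
open Fermat.Agent.ES.Mid (GQ gal IsDiv)
open Fermat.Agent.ORD.Dep (FixF FixK)

/-- (A6, corrected) `PL.FieldData` for any norm `Wv` on `FF N` which is Gauss, invariant under
inertia, and with value group `|1 - ζ|^ℤ` on `(FF N)^{G_t}`; `β ^ p` is fixed by `G_t`. -/
def Stmt_FD' : Prop :=
  ∀ (p : ℕ), p.Prime → p ≠ 2 → ∀ A : ValuationSubring Qbar, A.LiesOverPrime p →
  ∀ (N : ℕ) (Wv : ValuationSubring (FF N)), PL.Gauss A Wv →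
    (∀ s ∈ A.inertiaSubgroupIn ℚ, ∀ x : FF N, Wv.valuation (gal N s x) = Wv.valuation x) →
  ∀ (β ζ a₀ : Qbar) (σ : GQ), σ ∈ Gt A p → IsPrimitiveRoot ζ p → σ β = ζ * β →
    β ^ p = 1 + (p : Qbar) * a₀ → (∀ s ∈ Gt A p, s (β ^ p) = β ^ p) → A.valuation a₀ = 1 →
    (∀ x : FF N, x ≠ 0 → FixF N (Gt A p) x →
      ∃ m : ℤ, Wv.valuation x = Wv.valuation (algebraMap Qbar (FF N) (1 - ζ)) ^ m) →
    PL.FieldData p A Wv (RED.gal N σ) (fixSub N (Hb A p β)) ζ β a₀

theorem FD_gal_const (N : ℕ) (s : GQ) (c : Qbar) :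
    gal N s (algebraMap Qbar (FF N) c) = algebraMap Qbar (FF N) (s c) :=
  arithmeticRingAut_algebraMap (modularFunctionFieldFull N) s c

theorem FD_gal_mul (N : ℕ) (s t : GQ) (u : FF N) : gal N (s * t) u = gal N s (gal N t u) := by
  have h : arithmeticGalois (modularFunctionFieldFull N) (s * t) • u
      = arithmeticGalois (modularFunctionFieldFull N) s •
        arithmeticGalois (modularFunctionFieldFull N) t • u := by
    rw [map_mul, mul_smul]
  exact h

theorem FD_gal_one (N : ℕ) (u : FF N) : gal N 1 u = u := by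
  have h : arithmeticGalois (modularFunctionFieldFull N) (1 : GQ) • u = u := by
    rw [(arithmeticGalois (modularFunctionFieldFull N)).map_one, one_smul]
  exact h

theorem FD_gal_pow (N : ℕ) (s : GQ) (n : ℕ) (u : FF N) :
    (RED.gal N s ^ n) • u = gal N (s ^ n) u := by
  have h : (arithmeticGalois (modularFunctionFieldFull N) s ^ n) • u
      = arithmeticGalois (modularFunctionFieldFull N) (s ^ n) • u := by
    rw [map_pow]
  exact h

theorem FD_gal_inv (N : ℕ) (s : GQ) {u : FF N} (h : gal N s u = u) : gal N s⁻¹ u = u := by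
  have h1 := FD_gal_mul N s⁻¹ s u
  rw [inv_mul_cancel, h] at h1
  rw [← h1]
  have h2 : gal N 1 u = u := FD_gal_one N u
  exact h2

theorem FD_pow_apply {σ : GQ} {β ζ : Qbar} (hζ : σ ζ = ζ) (hβ : σ β = ζ * β) (i : ℕ) :
    (σ ^ i) β = ζ ^ i * β := by
  induction i with
  | zero => simp
  | succ i ih =>
    rw [pow_succ', AlgEquiv.mul_apply, ih, map_mul, map_pow, hζ, hβ]
    ring

theorem FD_gal_pow_fix (N : ℕ) (s : GQ) {u : FF N} (h : gal N s u = u) (n : ℕ) :
    gal N (s ^ n) u = u := by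
  induction n with
  | zero =>
    rw [pow_zero]
    have h2 : gal N 1 u = u := FD_gal_one N u
    exact h2
  | succ n ih => rw [pow_succ, FD_gal_mul, h, ih]

/-- **(A6)**, corrected. -/
theorem fd' : Stmt_FD' := by
  intro p hp hp2 A hA N Wv hG hW β ζ a₀ σ hσ hζ hσβ hβp hfix ha₀ hvg
  have hσζ : σ ζ = ζ := hσ.2 ζ hζ.pow_eq_one
  have hβ0 : β ≠ 0 := by
    rintro rfl
    rw [zero_pow hp.ne_zero] at hβp
    have h1 : (p : Qbar) * a₀ = -1 := by linear_combination -hβp
    have h2 : A.valuation ((p : Qbar) * a₀) = 1 := by rw [h1, Valuation.map_neg, map_one]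
    rw [map_mul, ha₀, mul_one] at h2
    have h3 : A.valuation (p : Qbar) < 1 := (A.mem_nonunits_iff).1 hA
    exact h3.ne h2
  have hpowHb : σ ^ p ∈ Hb A p β := by
    refine ⟨pow_mem hσ p, ?_⟩
    rw [FD_pow_apply hσζ hσβ, hζ.pow_eq_one, one_mul]
  refine
    { prime := hp
      odd := hp2
      gauss := hG
      p_ne := Nat.cast_ne_zero.2 hp.ne_zero
      p_small := hA
      zeta_pow := hζ.pow_eq_one
      zeta_ne := hζ.ne_one hp.one_lt
      g_pow := hβp
      a_unit := ha₀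
      sig_zeta := hσζ
      sig_g := hσβ
      sig_W := fun x => hW σ hσ.1 x
      zeta_mem := ?_
      g_mem := ?_
      sig_mem := ?_
      sig_pow := ?_
      vg := ?_ }
  · intro s hs
    rw [FD_gal_const, hs.1.2 ζ hζ.pow_eq_one]
  · intro s hs
    rw [FD_gal_const, hs.2]
  · intro x hx τ hτ
    show gal N τ (gal N σ x) = gal N σ x
    have hρ : σ⁻¹ * τ * σ ∈ Hb A p β := by
      refine ⟨mul_mem (mul_mem (inv_mem hσ) hτ.1) hσ, ?_⟩
      rw [AlgEquiv.mul_apply, AlgEquiv.mul_apply, hσβ, map_mul, hτ.1.2 ζ hζ.pow_eq_one, hτ.2,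
        ← hσβ]
      exact AlgEquiv.symm_apply_apply σ β
    have h1 : τ * σ = σ * (σ⁻¹ * τ * σ) := by group
    rw [← FD_gal_mul, h1, FD_gal_mul, hx _ hρ]
  · intro x hx
    rw [FD_gal_pow]
    exact hx _ hpowHb
  · intro x hx hx0 hσx
    apply hvg x hx0
    intro τ hτ
    have hσx' : gal N σ x = x := hσx
    -- `τ β = ζ ^ j β`
    have hroot : (τ β / β) ^ p = 1 := by
      rw [div_pow, ← map_pow, hfix τ hτ, div_self (pow_ne_zero _ hβ0)]
    have : NeZero p := ⟨hp.ne_zero⟩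
    obtain ⟨j, -, hj⟩ := hζ.eq_pow_of_pow_eq_one hroot
    have hτβ : τ β = ζ ^ j * β := by
      rw [hj, div_mul_cancel₀ _ hβ0]
    have hρ : τ⁻¹ * σ ^ j ∈ Hb A p β := by
      refine ⟨mul_mem (inv_mem hτ) (pow_mem hσ j), ?_⟩
      rw [AlgEquiv.mul_apply, FD_pow_apply hσζ hσβ, ← hτβ]
      exact AlgEquiv.symm_apply_apply τ β
    have h1 := hx _ hρ
    rw [FD_gal_mul, FD_gal_pow_fix N σ hσx'] at h1
    have h2 := FD_gal_inv N τ⁻¹ h1
    rwa [inv_inv] at h2

end Fermat.Agent.MR.Field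

end
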