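import Fermat.Agent.MR.Field.InterfaceA
import Fermat.Agent.MR.Field.FD

/-!
# MR / Field : assembly of block A (`Stmt_AOut`), with the corrected (A6) `Stmt_FD'` (helper6;
copy of `AOut.lean` of helper81)
-/

set_option autoImplicit false
set_option synthInstance.maxHeartbeats 400000

noncomputable section

namespace Fermat.Agent.MR.Field

open ModularCurve AlgebraicCurve
open Fermat.Agent.S24 (Qbar FF)
open Fermat.Agent.ES.Mid (GQ gal IsDiv)
open Fermat.Agent.INJ (RedData)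
open Fermat.Agent.INJ.Inst (kA)
open Fermat.Agent.ORD.Dep (cst rd GO Cg InW ActsMu FixF FixK Lvl)
open Fermat.Agent.BR.Inst (IsGaussS twist)

theorem aOut2 (h1 : Stmt_GtLvl) (h3 : Stmt_Dicho) (h4 : Stmt_VG) (h5 : Stmt_Roots) (h6 : Stmt_FD')
    (hB : Stmt_Bridge) (hT : Stmt_TwistVal) : Stmt_AOut := by
  intro p hp hp5 A hA N _ L D hG W hW β d₀ hP
  have hp2 : p ≠ 2 := by omega
  have hp0 : (p : Qbar) ≠ 0 := Nat.cast_ne_zero.2 hp.ne_zero
  rcases h3 p hp hp2 A hA β d₀ hP with hfix | ⟨σ, hσ, ζ, hζ, hσβ, hval⟩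
  · have : NeZero p := ⟨hp.ne_zero⟩
    obtain ⟨ζ, hζ⟩ : ∃ ζ : Qbar, IsPrimitiveRoot ζ p :=
      HasEnoughRootsOfUnity.exists_primitiveRoot Qbar p
    obtain ⟨hl, hv⟩ := h1 p hp hp2 A hA ζ hζ
    exact ⟨ζ, hζ, hl, hv, Or.inl hfix⟩
  · obtain ⟨hl, hv⟩ := h1 p hp hp2 A hA ζ hζ
    have hpow : β ^ p = 1 + (p : Qbar) * ((d₀ - 1) / (p : Qbar)) := by
      rw [hP.pow]; field_simp; ring
    have hiso := (hB N A L D hG).2.2.2.1
    have hfx : ∀ s ∈ Gt A p, s (β ^ p) = β ^ p := fun s hs => by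
      rw [hP.pow]; exact hP.fix s (Gt_le_inertia A p hs)
    have hg1 : PL.Gauss A D.O := by
      have := PL.Gauss.ofRedData D
      rwa [hG.gauss.hA] at this
    have hg2 : PL.Gauss A (twist D W).O := by
      have := PL.Gauss.ofRedData (twist D W)
      rwa [Fermat.Agent.BR.Inst.twist_A, hG.gauss.hA] at this
    refine ⟨ζ, hζ, hl, hv, Or.inr ⟨σ, hσ, (d₀ - 1) / (p : Qbar), ?_, ?_, ?_⟩⟩
    · exact h6 p hp hp2 A hA N D.O hg1 hiso β ζ _ σ hσ hζ hσβ hpow hfx hval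
        (fun x hx hfx => h4 A (Gt A p) (1 - ζ) hl N L D hG x hx hfx)
    · refine h6 p hp hp2 A hA N (twist D W).O hg2 ?_ β ζ _ σ hσ hζ hσβ hpow hfx hval ?_
      · intro s hs x
        rw [(hT Qbar (FF N) (kA A) L D W (gal N s x) x).2.2, hW]
        exact hiso s hs (W x)
      · intro x hx hfx
        have hWx : W x ≠ 0 := (map_ne_zero W).2 hx
        have hWf : FixF N (Gt A p) (W x) := fun s hs => by rw [← hW, hfx s hs]
        obtain ⟨m, hm⟩ := h4 A (Gt A p) (1 - ζ) hl N L D hG (W x) hWx hWf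
        refine ⟨m, ?_⟩
        rw [← map_zpow₀, (hT Qbar (FF N) (kA A) L D W x _).2.2, hm, map_zpow₀ W,
          AlgEquiv.commutes, map_zpow₀]
    · exact h5 p hp A hA N (Hb A p β) ((Hb_le_Gt A p β).trans (Gt_le_inertia A p))

/-- block A with (A6) plugged in. -/
theorem aOut3 (h1 : Stmt_GtLvl) (h3 : Stmt_Dicho) (h4 : Stmt_VG) (h5 : Stmt_Roots)
    (hB : Stmt_Bridge) (hT : Stmt_TwistVal) : Stmt_AOut := aOut2 h1 h3 h4 h5 fd' hB hT

end Fermat.Agent.MR.Field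

end
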