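import Fermat.Agent.MR.Field.InterfaceA
import Fermat.Agent.ORD.Dep.GOApi
import Fermat.Agent.MR.PL.Final

/-!
# MR / Field, (A-BRIDGE) : the Gauss datum `D` in the language `GO`, `rd`, `Cg` of `ORD/Dep`;
inertia acts by isometries and trivially on the reduction.
-/

set_option autoImplicit false
set_option synthInstance.maxHeartbeats 400000
set_option maxHeartbeats 4000000

noncomputable section

namespace Fermat.Agent.MR.Field

open ModularCurve AlgebraicCurve
open Fermat.Agent.S24 (Qbar FF)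
open Fermat.Agent.ES.Mid (GQ gal IsDiv)
open Fermat.Agent.INJ (RedData)
open Fermat.Agent.INJ.Inst (kA)
open Fermat.Agent.ORD.Dep (cst rd GO Cg InW ActsMu FixF FixK Lvl)
open Fermat.Agent.BR.Inst (IsGaussS twist)

/-- every orbit of a power of `s` on `ℚ̄` is finite. -/
theorem Bridge_finite_orbit (s : GQ) (c : Qbar) : ∃ m : ℕ, 0 < m ∧ (s ^ m) c = c := by
  have halg : Algebra.IsAlgebraic ℚ Qbar := AlgebraicClosure.isAlgebraic ℚ
  have hc : IsIntegral ℚ c := (Algebra.IsAlgebraic.isAlgebraic c).isIntegral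
  have hne : minpoly ℚ c ≠ 0 := minpoly.ne_zero hc
  let f : ℕ → (minpoly ℚ c).rootSet Qbar := fun m => ⟨(s ^ m) c, by
    rw [Polynomial.mem_rootSet]
    refine ⟨hne, ?_⟩
    rw [← minpoly.algEquiv_eq (s ^ m) c]
    exact minpoly.aeval _ _⟩
  have : Finite ((minpoly ℚ c).rootSet Qbar) := Polynomial.rootSet_finite _ _
  obtain ⟨m₁, m₂, hne', heq⟩ := Finite.exists_ne_map_eq_of_infinite f
  have heq' : (s ^ m₁) c = (s ^ m₂) c := congrArg Subtype.val heq
  have key : ∀ a b : ℕ, a < b → (s ^ a) c = (s ^ b) c → ∃ m : ℕ, 0 < m ∧ (s ^ m) c = c := by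
    intro a b hab h
    refine ⟨b - a, by omega, ?_⟩
    have hb : s ^ b = s ^ a * s ^ (b - a) := by rw [← pow_add]; congr 1; omega
    rw [hb, AlgEquiv.mul_apply] at h
    exact ((s ^ a).injective h).symm
  rcases lt_or_gt_of_ne hne' with h | h
  · exact key _ _ h heq'
  · exact key _ _ h heq'.symm

theorem Bridge_baseAut_pow (N : ℕ) (s : GQ) (m : ℕ) (c : Qbar) :
    (SemilinearAut.baseAut (RED.gal N s) ^ m) c = (s ^ m) c := by
  induction m generalizing c with
  | zero => rfl
  | succ m ih =>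
    rw [pow_succ, pow_succ, RingAut.mul_apply, AlgEquiv.mul_apply, ih]
    rfl

theorem Bridge_coeffMap_inv (s : GQ) (x : LaurentSeries Qbar) :
    coeffMap ((s⁻¹ : GQ) : Qbar →+* Qbar) (coeffMap (s : Qbar →+* Qbar) x) = x := by
  rw [coeffMap_coeffMap]
  have : (((s⁻¹ : GQ) : Qbar →+* Qbar)).comp (s : Qbar →+* Qbar) = RingHom.id Qbar := by
    ext a
    exact AlgEquiv.symm_apply_apply s a
  rw [this, coeffMap_id]

theorem Bridge_val_le {F : Type*} [Field F] (O : ValuationSubring F) {a y : F} (ha : a ≠ 0)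
    (h : a⁻¹ * y ∈ O) : O.valuation y ≤ O.valuation a := by
  have hv := (ValuationSubring.valuation_le_one_iff _ _).2 h
  rw [map_mul, map_inv₀] at hv
  have hpos : 0 < O.valuation a := zero_lt_iff.2 ((Valuation.ne_zero_iff _).2 ha)
  rwa [inv_mul_le_iff₀ hpos, mul_one] at hv

theorem bridge : Stmt_Bridge := by
  intro N _ A L D hG
  have h1 : ∀ x : FF N, x ∈ D.O ↔ GO A (x : LaurentSeries Qbar) := by
    intro x
    constructor
    · intro hx
      obtain ⟨f, g, hg0, hfg⟩ := hG.exists_ratio x hx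
      exact ⟨f, g, hg0, hfg⟩
    · rintro ⟨f, g, hg0, hfg⟩
      exact (hG.ratio x f g hg0 hfg).1
  have h2 : ∀ x : FF N, x ∈ D.O →
      ((D.rd x : L) : LaurentSeries (kA A)) = rd A (x : LaurentSeries Qbar) := by
    intro x hx
    obtain ⟨f, g, hg0, hfg⟩ := hG.exists_ratio x hx
    have h3 := (hG.ratio x f g hg0 hfg).2
    have hr : INJ.Inst.Gauss.IsRatio (IsLocalRing.residue A) (x : LaurentSeries Qbar) f g :=
      ⟨hg0, hfg⟩
    rw [ORD.Dep.rd_eq hr]
    exact h3
  have hmem : ∀ s ∈ A.inertiaSubgroupIn ℚ, ∀ x : FF N, x ∈ D.O → gal N s x ∈ D.O := by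
    intro s hs x hx
    rw [h1, Fermat.Agent.ES.Mid.coe_gal]
    exact ORD.Dep.GO.coeffMap hs ((h1 x).1 hx)
  refine ⟨h1, h2, ?_, ?_, ?_⟩
  · rintro c x ⟨z, hz, hxz⟩
    by_cases hc : c = 0
    · have hx1 : x = 1 := by
        apply Subtype.ext
        rw [hxz, hc]
        simp
      rw [hx1, sub_self, map_zero]
      exact zero_le
    · have hc' : algebraMap Qbar (FF N) c ≠ 0 := by simpa using hc
      have hcs : cst c ≠ 0 := by simpa using hc
      have hz' : (algebraMap Qbar (FF N) c)⁻¹ * (x - 1) ∈ D.O := by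
        rw [h1]
        have : (((algebraMap Qbar (FF N) c)⁻¹ * (x - 1) : FF N) : LaurentSeries Qbar) = z := by
          show (cst c)⁻¹ * ((x : LaurentSeries Qbar) - 1) = z
          rw [hxz, add_sub_cancel_left, inv_mul_cancel_left₀ hcs]
        rw [this]
        exact hz
      exact Bridge_val_le (F := FF N) D.O (a := algebraMap Qbar (FF N) c) (y := x - 1) hc' hz'
  · intro s hs x
    have key := PL.all_Iso Qbar (FF N) D.A D.O (RED.gal N s) (PL.Gauss.ofRedData D) (fun y => by
      rw [gal_smul]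
      constructor
      · intro hy
        have h3 := hmem s⁻¹ (inv_mem hs) _ hy
        have h4 : gal N s⁻¹ (gal N s y) = y := by
          apply Subtype.ext
          rw [Fermat.Agent.ES.Mid.coe_gal, Fermat.Agent.ES.Mid.coe_gal]
          exact Bridge_coeffMap_inv s _
        rwa [h4] at h3
      · exact hmem s hs y) (fun c => by
      obtain ⟨m, hm, hmc⟩ := Bridge_finite_orbit s c
      exact ⟨m, hm, by rw [Bridge_baseAut_pow]; exact hmc⟩) x
    rwa [gal_smul] at key
  · intro s hs x hx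
    apply Subtype.ext
    rw [h2 _ (hmem s hs x hx), h2 x hx, Fermat.Agent.ES.Mid.coe_gal]
    exact ORD.Dep.rd_coeffMap hs ((h1 x).1 hx)

end Fermat.Agent.MR.Field

end
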