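import Fermat.Agent.MR.Field.InterfaceB
import Fermat.Agent.MR.PL.Basic

/-!
# MR / Field : (B-CONG) case B (helper26, task 1605)

`σ u / u` is a constant modulo `< |1 - ζ|` for both norms.
-/

set_option autoImplicit false
set_option synthInstance.maxHeartbeats 400000

noncomputable section

namespace Fermat.Agent.MR.Field

open ModularCurve AlgebraicCurve
open Fermat.Agent.S24 (Qbar FF)
open Fermat.Agent.ES.Mid (GQ gal IsDiv)
open Fermat.Agent.INJ (RedData)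
open Fermat.Agent.INJ.Inst (kA)
open Fermat.Agent.ORD.Dep (cst rd GO Cg InW ActsMu FixF FixK Lvl)
open Fermat.Agent.BR.Inst (IsGaussS twist)

/-- `|π ^ 2| < |π|` for a nonzero small constant. -/
theorem CongB.val_sq_lt {K F : Type} [Field K] [Field F] [Algebra K F] {A : ValuationSubring K}
    {W : ValuationSubring F} (h : PL.Gauss A W) {π : K} (h0 : π ≠ 0) (h1 : π ∈ A.nonunits) :
    W.valuation (algebraMap K F (π ^ 2)) < W.valuation (algebraMap K F π) := by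
  rw [h.val_lt_iff, map_pow, sq]
  have h2 : A.valuation π < 1 := (ValuationSubring.mem_nonunits_iff (A := A)).1 h1
  have h3 : A.valuation π ≠ 0 := (Valuation.ne_zero_iff _).2 h0
  calc A.valuation π * A.valuation π < A.valuation π * 1 :=
        mul_lt_mul_of_pos_left h2 (zero_lt_iff.2 h3)
    _ = A.valuation π := mul_one _

theorem congB (hY : Stmt_YDec) (hYC : PL.Stmt_YC2) (hB : Stmt_Bridge) (hT : Stmt_TwistVal) :
    Stmt_CongB := by
  intro p _ hp _hp5 A hA M _ _ hpM T XX hR L D hG β ζ a₀ σ hσ hLvl hF1 hF2 hRM u hu hufix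
  have hcg := hR.cg
  have hu0 : u ≠ 0 := (hcg.isDiv u hu).1
  have hσI : σ ∈ A.inertiaSubgroupIn ℚ := Gt_le_inertia A p hσ
  have huF : u ∈ fixSub (M * p) (Hb A p β) := mem_fixSub.2 hufix
  -- the element `Y`
  obtain ⟨Y, hYdef⟩ : ∃ Y : FF (M * p), Y = gal (M * p) σ u * u⁻¹ := ⟨_, rfl⟩
  have hYeq : RED.gal (M * p) σ • u / u = Y := by
    rw [gal_smul, div_eq_mul_inv, hYdef]
  have hYX : Y ∈ XX := by
    rw [hYdef]; exact hcg.mul _ (hcg.gal σ u hu) _ (hcg.inv u hu)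
  have hYfix : FixF (M * p) (Hb A p β) Y := by
    have h1 : RED.gal (M * p) σ • u ∈ fixSub (M * p) (Hb A p β) := hF1.sig_mem u huF
    have h2 : Y ∈ fixSub (M * p) (Hb A p β) := by
      rw [← hYeq]; exact div_mem h1 huF
    exact mem_fixSub.1 h2
  obtain ⟨hW1, hW2⟩ : InW A (M * p) p Y ∧ InW A (M * p) p (T.W Y) := by
    rw [hYdef]; exact hR.inert σ hσI u hu
  have hcls : ∀ s ∈ Gt A p, ∃ g : FF (M * p), gal (M * p) s Y = Y * g ^ p := by
    intro s hs
    obtain ⟨g, hg⟩ := hR.omega Y hYX hW1 hW2 s (Gt_le_inertia A p hs) 1 (mem_Gt.1 hs).2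
    exact ⟨g, by rw [hg, pow_one]⟩
  have hπ0 : (1 - ζ : Qbar) ≠ 0 := hLvl.sm.1
  have hπ1 : (1 - ζ : Qbar) ∈ A.nonunits := hLvl.sm.2
  have hd : ((1 - ζ) ^ 2 : Qbar) ≠ 0 := pow_ne_zero 2 hπ0
  have hle : Hb A p β ≤ Gt A p := Hb_le_Gt A p β
  -- norm 1
  obtain ⟨C₁, hC₁, hC₁'⟩ : ∃ C : Qbar, A.valuation C = 1 ∧
      D.O.valuation (RED.gal (M * p) σ • u / u - algebraMap Qbar (FF (M * p)) C) <
        D.O.valuation (algebraMap Qbar (FF (M * p)) (1 - ζ)) := by
    obtain ⟨c, y, g, hc, _hg, hyfix, hgfix, hcg', hdec⟩ :=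
      hY p hp A hA M hpM T XX hcg (Gt A p) (Hb A p β) (1 - ζ) hle hLvl Y hYX hYfix hcls hW1
        ((1 - ζ) ^ 2) hd
    have h1 : D.O.valuation (y - 1) ≤ D.O.valuation (algebraMap Qbar (FF (M * p)) ((1 - ζ) ^ 2)) :=
      (hB (M * p) A L D hG).2.2.1 _ y hcg'
    have h2 := CongB.val_sq_lt hF1.gauss hπ0 hπ1
    refine hYC Qbar (FF (M * p)) p A D.O (RED.gal (M * p) σ) (fixSub (M * p) (Hb A p β)) ζ β a₀
      hF1 hRM u y g c huF (mem_fixSub.2 fun s hs => hyfix s (hle hs)) (mem_fixSub.2 hgfix) hu0 hc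
      ?_ (lt_of_le_of_lt h1 h2) ?_
    · rw [gal_smul]; exact hyfix σ hσ
    · rw [hYeq]; exact hdec
  -- norm 2
  obtain ⟨C₂, hC₂, hC₂'⟩ : ∃ C : Qbar, A.valuation C = 1 ∧
      (twist D T.W).O.valuation (RED.gal (M * p) σ • u / u - algebraMap Qbar (FF (M * p)) C) <
        (twist D T.W).O.valuation (algebraMap Qbar (FF (M * p)) (1 - ζ)) := by
    have hY'fix : FixF (M * p) (Hb A p β) (T.W Y) := by
      intro s hs
      rw [← T.gal_comm, hYfix s hs]
    have hcls' : ∀ s ∈ Gt A p, ∃ g : FF (M * p), gal (M * p) s (T.W Y) = T.W Y * g ^ p := by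
      intro s hs
      obtain ⟨g, hg⟩ := hcls s hs
      exact ⟨T.W g, by rw [← T.gal_comm, hg, map_mul, map_pow]⟩
    obtain ⟨c, y, g, hc, _hg, hyfix, hgfix, hcg', hdec⟩ :=
      hY p hp A hA M hpM T XX hcg (Gt A p) (Hb A p β) (1 - ζ) hle hLvl (T.W Y) (hcg.al Y hYX)
        hY'fix hcls' hW2 ((1 - ζ) ^ 2) hd
    have h1 : D.O.valuation (y - 1) ≤ D.O.valuation (algebraMap Qbar (FF (M * p)) ((1 - ζ) ^ 2)) :=
      (hB (M * p) A L D hG).2.2.1 _ y hcg'
    have h2 := CongB.val_sq_lt hF1.gauss hπ0 hπ1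
    have hdec' : Y = algebraMap Qbar (FF (M * p)) c * T.W y * (T.W g) ^ p := by
      have := congrArg T.W hdec
      rw [T.invol, map_mul, map_mul, map_pow, AlgEquiv.commutes] at this
      exact this
    have hWyfix : FixF (M * p) (Gt A p) (T.W y) := by
      intro s hs
      rw [← T.gal_comm, hyfix s hs]
    have hWgfix : FixF (M * p) (Hb A p β) (T.W g) := by
      intro s hs
      rw [← T.gal_comm, hgfix s hs]
    have h3 : (twist D T.W).O.valuation (T.W y - 1) <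
        (twist D T.W).O.valuation (algebraMap Qbar (FF (M * p)) (1 - ζ)) := by
      rw [(hT Qbar (FF (M * p)) (kA A) L D T.W _ _).2.1, map_sub, T.invol, map_one,
        AlgEquiv.commutes]
      exact lt_of_le_of_lt h1 h2
    refine hYC Qbar (FF (M * p)) p A (twist D T.W).O (RED.gal (M * p) σ)
      (fixSub (M * p) (Hb A p β)) ζ β a₀
      hF2 hRM u (T.W y) (T.W g) c huF (mem_fixSub.2 fun s hs => hWyfix s (hle hs))
      (mem_fixSub.2 hWgfix) hu0 hc ?_ h3 ?_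
    · rw [gal_smul]; exact hWyfix σ hσ
    · rw [hYeq]; exact hdec'
  exact ⟨C₁, C₂, hC₁, hC₂, hC₁', hC₂'⟩

end Fermat.Agent.MR.Field

end
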