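import Fermat.Agent.MR.Field.InterfaceB
import Fermat.Agent.ORD.Dep.C
import Fermat.Agent.ORD.Dep.H90
import Fermat.Agent.ORD.NM.UMem

/-!
# MR / Field, task FIELD-B3 (helper92): rational representatives of arbitrary depth
-/

set_option autoImplicit false
set_option synthInstance.maxHeartbeats 400000

noncomputable section

namespace Fermat.Agent.MR.Field

open ModularCurve AlgebraicCurve
open Fermat.Agent.S24 (Qbar FF)
open Fermat.Agent.ES.Mid (GQ gal IsDiv coe_gal)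
open Fermat.Agent.INJ (RedData)
open Fermat.Agent.INJ.Inst (kA)
open Fermat.Agent.ORD.Dep (cst rd GO Cg InW ActsMu FixF FixK Lvl formalU)

section Op

variable {N p : ℕ} [NeZero p] {ζ : Qbarˣ} {n : FF N → FF N}

theorem DeepFix_one (hζ : IsPrimitiveRoot ζ p)
    (hn : ∀ u, ((n u : FF N) : LaurentSeries Qbar) = formalU p ζ (u : LaurentSeries Qbar)) :
    n 1 = 1 :=
  Subtype.ext (by
    rw [hn, IntermediateField.coe_one]
    exact (ORD.NM.stmt_UForm p ζ hζ).1)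

theorem DeepFix_mul (hζ : IsPrimitiveRoot ζ p)
    (hn : ∀ u, ((n u : FF N) : LaurentSeries Qbar) = formalU p ζ (u : LaurentSeries Qbar))
    (u v : FF N) : n (u * v) = n u * n v :=
  Subtype.ext (by
    rw [hn, IntermediateField.coe_mul, IntermediateField.coe_mul, hn, hn]
    exact (ORD.NM.stmt_UForm p ζ hζ).2.1 _ _)

theorem DeepFix_pow (hζ : IsPrimitiveRoot ζ p)
    (hn : ∀ u, ((n u : FF N) : LaurentSeries Qbar) = formalU p ζ (u : LaurentSeries Qbar))
    (u : FF N) (k : ℕ) : n (u ^ k) = n u ^ k := by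
  induction k with
  | zero => rw [pow_zero, pow_zero, DeepFix_one hζ hn]
  | succ k ih => rw [pow_succ, pow_succ, DeepFix_mul hζ hn, ih]

theorem DeepFix_ne_zero (hζ : IsPrimitiveRoot ζ p)
    (hn : ∀ u, ((n u : FF N) : LaurentSeries Qbar) = formalU p ζ (u : LaurentSeries Qbar))
    {u : FF N} (hu : u ≠ 0) : n u ≠ 0 := by
  intro h
  have h1 : n u * n u⁻¹ = 1 := by
    rw [← DeepFix_mul hζ hn, mul_inv_cancel₀ hu, DeepFix_one hζ hn]
  rw [h, zero_mul] at h1
  exact zero_ne_one h1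

theorem DeepFix_gal (hζ : IsPrimitiveRoot ζ p)
    (hn : ∀ u, ((n u : FF N) : LaurentSeries Qbar) = formalU p ζ (u : LaurentSeries Qbar))
    (s : GQ) (u : FF N) : gal N s (n u) = n (gal N s u) :=
  Subtype.ext (by
    rw [coe_gal, hn, hn, coe_gal]
    exact (ORD.NM.stmt_UForm p ζ hζ).2.2.2.2 s _)

theorem DeepFix_fix (hζ : IsPrimitiveRoot ζ p)
    (hn : ∀ u, ((n u : FF N) : LaurentSeries Qbar) = formalU p ζ (u : LaurentSeries Qbar))
    {H : Subgroup GQ} {u : FF N} (hu : FixF N H u) : FixF N H (n u) := by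
  intro s hs
  rw [DeepFix_gal hζ hn, hu s hs]

theorem DeepFix_fix_iter (hζ : IsPrimitiveRoot ζ p)
    (hn : ∀ u, ((n u : FF N) : LaurentSeries Qbar) = formalU p ζ (u : LaurentSeries Qbar))
    {H : Subgroup GQ} {u : FF N} (hu : FixF N H u) (k : ℕ) : FixF N H (n^[k] u) := by
  induction k with
  | zero => exact hu
  | succ k ih =>
    rw [Function.iterate_succ_apply']
    exact DeepFix_fix hζ hn ih

theorem DeepFix_coe_iter
    (hn : ∀ u, ((n u : FF N) : LaurentSeries Qbar) = formalU p ζ (u : LaurentSeries Qbar))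
    (k : ℕ) (x : FF N) :
    ((n^[k] x : FF N) : LaurentSeries Qbar) = (formalU p ζ)^[k] (x : LaurentSeries Qbar) := by
  induction k with
  | zero => rfl
  | succ k ih => rw [Function.iterate_succ_apply', Function.iterate_succ_apply', hn, ih]

/-- the even iterates of `n` do not change the class. -/
theorem DeepFix_class (hζ : IsPrimitiveRoot ζ p)
    (hn : ∀ u, ((n u : FF N) : LaurentSeries Qbar) = formalU p ζ (u : LaurentSeries Qbar))
    {y : FF N} (hy : y ≠ 0) (hnn : ∃ g : FF N, n (n y) = y * g ^ p) (m : ℕ) :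
    ∃ g : FF N, g ≠ 0 ∧ n^[2 * m] y = y * g ^ p := by
  obtain ⟨g', hg'⟩ := hnn
  have hp0 : p ≠ 0 := NeZero.ne p
  have hg'0 : g' ≠ 0 := by
    rintro rfl
    rw [zero_pow hp0, mul_zero] at hg'
    exact DeepFix_ne_zero hζ hn (DeepFix_ne_zero hζ hn hy) hg'
  induction m with
  | zero => exact ⟨1, one_ne_zero, by simp⟩
  | succ m ih =>
    obtain ⟨g, hg, e⟩ := ih
    refine ⟨g' * n (n g), mul_ne_zero hg'0 (DeepFix_ne_zero hζ hn (DeepFix_ne_zero hζ hn hg)), ?_⟩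
    have e2 : 2 * (m + 1) = 2 * m + 1 + 1 := by ring
    rw [e2, Function.iterate_succ_apply', Function.iterate_succ_apply', e, DeepFix_mul hζ hn,
      DeepFix_mul hζ hn, DeepFix_pow hζ hn, DeepFix_pow hζ hn, hg', mul_pow, mul_assoc]

end Op

/-- **(B-DEEP)**. -/
theorem deepFix : Stmt_DeepFix := by
  intro p _ hp A hA M _ T XX hCG H π hL y₁ hy₁ hfix hCg d hd
  have hy0 : y₁ ≠ 0 := (hCG.isDiv y₁ hy₁).1
  obtain ⟨n₀, hn₀⟩ := ORD.Dep.stmt_Deepen p hp A hA T.ζ T.prim π hL.sm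
    (y₁ : LaurentSeries Qbar) hCg d hd
  obtain ⟨g, hg, hyg⟩ := DeepFix_class T.prim T.coe_n hy0 (hCG.nn y₁ hy₁) n₀
  have hFy : FixF (M * p) H (T.n^[2 * n₀] y₁) := DeepFix_fix_iter T.prim T.coe_n hfix _
  have hCy : Cg A d ((T.n^[2 * n₀] y₁ : FF (M * p)) : LaurentSeries Qbar) 1 := by
    rw [DeepFix_coe_iter T.coe_n]
    exact hn₀ _ (by omega)
  have hq : T.n^[2 * n₀] y₁ / y₁ = g ^ p := by
    rw [hyg, mul_div_cancel_left₀ _ hy0]
  have hFq : FixF (M * p) H (T.n^[2 * n₀] y₁ / y₁) := by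
    intro s hs
    rw [map_div₀, hFy s hs, hfix s hs]
  obtain ⟨c', g₀, hc', hKc', hg₀, hFg₀, e⟩ :=
    ORD.Dep.stmt_KD (M * p) p H (T.n^[2 * n₀] y₁ / y₁) g hp.pos hg hFq hq
  refine ⟨c'⁻¹, T.n^[2 * n₀] y₁, g₀⁻¹, inv_ne_zero hc', ?_, inv_ne_zero hg₀, ?_, hFy, hCy, ?_⟩
  · intro s hs
    rw [map_inv₀, hKc' s hs]
  · intro s hs
    rw [map_inv₀, hFg₀ s hs]
  · have hc'' : algebraMap Qbar (FF (M * p)) c' ≠ 0 := by simpa using hc'
    have e' : T.n^[2 * n₀] y₁ = y₁ * (algebraMap Qbar (FF (M * p)) c' * g₀ ^ p) := by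
      rw [← e, mul_div_cancel₀ _ hy0]
    rw [e', map_inv₀, inv_pow]
    field_simp

end Fermat.Agent.MR.Field

end
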