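import Fermat.Agent.MR.Field.InterfaceA

/-!
# MR / Field / Dicho : (A3) the dichotomy for `(β, d₀)`

Either `G_t` fixes `β`, or some `σ ∈ G_t` has `σ β = ζ β` and `(d₀ - 1) / p` is a unit.
-/

set_option autoImplicit false
set_option synthInstance.maxHeartbeats 400000

noncomputable section

namespace Fermat.Agent.MR.Field

open ModularCurve AlgebraicCurve
open Fermat.Agent.S24 (Qbar FF)
open Fermat.Agent.ES.Mid (GQ gal IsDiv)
open Fermat.Agent.ORD.Dep (cst rd GO Cg InW ActsMu FixF FixK Lvl UnitA)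

/-- a unit of `A` has value `1`. -/
theorem Dicho_val_unit {A : ValuationSubring Qbar} {a : Qbar} (ha0 : a ≠ 0) (h : UnitA A a) :
    A.valuation a = 1 := by
  have h1 : A.valuation a ≤ 1 := (ValuationSubring.valuation_le_one_iff _ _).2 h.1
  have h2 : A.valuation a⁻¹ ≤ 1 := (ValuationSubring.valuation_le_one_iff _ _).2 h.2
  rw [map_inv₀] at h2
  exact le_antisymm h1
    ((inv_le_one₀ (zero_lt_iff.2 ((Valuation.ne_zero_iff _).2 ha0))).1 h2)

/-- arithmetic of the exponents. -/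
theorem Dicho_exp {Γ : Type*} [LinearOrderedCommGroupWithZero Γ] (p : ℕ) (hp : 3 ≤ p) (x : Γ)
    (hx0 : x ≠ 0) (hx1 : x < 1) (n : ℤ) (h1 : (x ^ (p - 1)) ^ n < 1)
    (h2 : x ^ p ≤ (x ^ (p - 1)) ^ n) : n = 1 := by
  have hpos : 0 < x := zero_lt_iff.2 hx0
  have hanti : StrictAnti (fun n : ℤ => x ^ n) := zpow_right_strictAnti₀ hpos hx1
  have e : (x ^ (p - 1)) ^ n = x ^ (((p - 1 : ℕ) : ℤ) * n) := by
    rw [zpow_mul, zpow_natCast]
  have hc : ((p - 1 : ℕ) : ℤ) = (p : ℤ) - 1 := by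
    rw [Nat.cast_sub (by omega), Nat.cast_one]
  have hp' : (3 : ℤ) ≤ (p : ℤ) := by exact_mod_cast hp
  rw [e, hc] at h1 h2
  have h3 : (0 : ℤ) < ((p : ℤ) - 1) * n := by
    have : x ^ (((p : ℤ) - 1) * n) < x ^ (0 : ℤ) := by rwa [zpow_zero]
    exact hanti.lt_iff_gt.1 this
  have h4 : ((p : ℤ) - 1) * n ≤ (p : ℤ) := by
    have : x ^ ((p : ℕ) : ℤ) ≤ x ^ (((p : ℤ) - 1) * n) := by rwa [zpow_natCast]
    exact hanti.le_iff_ge.1 this
  have h5 : 0 < n := by
    by_contra hn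
    have : ((p : ℤ) - 1) * n ≤ 0 := mul_nonpos_of_nonneg_of_nonpos (by linarith) (by linarith)
    linarith
  have h6 : n < 2 := by
    by_contra hn
    have : ((p : ℤ) - 1) * 2 ≤ ((p : ℤ) - 1) * n :=
      mul_le_mul_of_nonneg_left (by linarith) (by linarith)
    linarith
  omega

/-- (A3) -/
theorem dicho (h1 : Stmt_GtLvl) (h2 : Stmt_ILvl) : Stmt_Dicho := by
  intro p hp hp2 A hA β d₀ hd
  by_cases hfix : ∀ s ∈ Gt A p, s β = β
  · exact Or.inl hfix
  right
  push Not at hfix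
  obtain ⟨σ, hσ, hσβ⟩ := hfix
  have hσI : σ ∈ A.inertiaSubgroupIn ℚ := hσ.1
  have hvd : A.valuation d₀ = 1 := by
    have := Valuation.map_one_add_of_lt (v := A.valuation) hd.one
    rwa [add_sub_cancel] at this
  have hd0 : d₀ ≠ 0 := by
    intro h
    rw [h, map_zero] at hvd
    exact zero_ne_one hvd
  have hβ0 : β ≠ 0 := by
    intro h
    apply hd0
    rw [← hd.pow, h, zero_pow hp.ne_zero]
  have hζp : (σ β / β) ^ p = 1 := by
    rw [div_pow, ← map_pow, hd.pow, hd.fix σ hσI, div_self hd0]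
  have hζ1 : σ β / β ≠ 1 := by
    intro h
    exact hσβ ((div_eq_one_iff_eq hβ0).1 h)
  have hprim : IsPrimitiveRoot (σ β / β) p := by
    have := Fact.mk hp
    have ho := orderOf_eq_prime hζp hζ1
    rw [← ho]
    exact IsPrimitiveRoot.orderOf _
  have hσβ' : σ β = σ β / β * β := by rw [div_mul_cancel₀ _ hβ0]
  generalize σ β / β = ζ at hζp hζ1 hprim hσβ'
  refine ⟨σ, hσ, ζ, hprim, hσβ', ?_⟩
  obtain ⟨hL, hpw⟩ := h1 p hp hp2 A hA ζ hprim
  have hw0 : (1 - ζ) ≠ 0 := hL.sm.1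
  have hw1 : A.valuation (1 - ζ) < 1 := (ValuationSubring.mem_nonunits_iff A).1 hL.sm.2
  -- no factor is small
  have hA1 : ∀ μ : Qbar, μ ^ p = 1 → A.valuation (1 - ζ) < A.valuation (1 - μ * β) := by
    intro μ hμ
    by_contra hcon
    rw [not_lt] at hcon
    have hy : (1 - μ * β) / (1 - ζ) ∈ A := by
      rw [← ValuationSubring.valuation_le_one_iff, map_div₀]
      exact div_le_one_of_le₀ hcon zero_le
    have h3 := Fermat.Agent.ES.Mid.J.sub_mem_nonunits hσI _ hy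
    have h4 : σ ((1 - μ * β) / (1 - ζ)) - (1 - μ * β) / (1 - ζ) = μ * β := by
      rw [map_div₀, hL.fix σ hσ, map_sub, map_one, map_mul, hσ.2 μ hμ, hσβ']
      field_simp
      ring
    rw [h4, ValuationSubring.mem_nonunits_iff] at h3
    have h5 : A.valuation (μ * β) = 1 := by
      have h6 : A.valuation (μ * β) ^ p = 1 := by
        rw [← map_pow, mul_pow, hμ, one_mul, hd.pow, hvd]
      exact (pow_eq_one_iff_left hp.ne_zero).1 h6
    rw [h5] at h3
    exact lt_irrefl _ h3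
  have hprod : 1 - d₀ = ∏ μ ∈ Polynomial.nthRootsFinset p (1 : Qbar), (1 - μ * β) := by
    have := hprim.pow_sub_pow_eq_prod_sub_mul (1 : Qbar) β hp.pos
    rwa [one_pow, hd.pow] at this
  have hlow : A.valuation (1 - ζ) ^ p ≤ A.valuation (d₀ - 1) := by
    rw [Valuation.map_sub_swap _ d₀ 1, hprod, map_prod]
    have hcard := hprim.card_nthRootsFinset
    calc A.valuation (1 - ζ) ^ p
        = A.valuation (1 - ζ) ^ (Polynomial.nthRootsFinset p (1 : Qbar)).card := by rw [hcard]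
      _ ≤ _ := Finset.pow_card_le_prod _ _ _
          (fun μ hμ => (hA1 μ ((Polynomial.mem_nthRootsFinset hp.pos _).1 hμ)).le)
  have hd1 : d₀ - 1 ≠ 0 := by
    intro h
    have h3 : d₀ = 1 := sub_eq_zero.1 h
    exact hσβ (hσ.2 β (by rw [hd.pow, h3]))
  have hfixd : FixK (A.inertiaSubgroupIn ℚ) (d₀ - 1) := fun s hs => by
    rw [map_sub, map_one, hd.fix s hs]
  obtain ⟨n, hn⟩ := (h2 p hp A hA).unif (d₀ - 1) hd1 hfixd
  have hp0 : (p : Qbar) ≠ 0 := Nat.cast_ne_zero.2 hp.ne_zero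
  have hvn := Dicho_val_unit (mul_ne_zero hd1 (zpow_ne_zero _ hp0)) hn
  have hx0 : A.valuation (1 - ζ) ≠ 0 := (Valuation.ne_zero_iff _).2 hw0
  have hvd1 : A.valuation (d₀ - 1) = (A.valuation (1 - ζ) ^ (p - 1)) ^ n := by
    rw [map_mul, map_zpow₀, hpw, zpow_neg] at hvn
    exact eq_of_mul_inv_eq_one hvn
  have hp3 : 3 ≤ p := by
    have := hp.two_le
    omega
  have hn1 : n = 1 := by
    apply Dicho_exp p hp3 (A.valuation (1 - ζ)) hx0 hw1 n
    · rw [← hvd1]; exact hd.one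
    · rw [← hvd1]; exact hlow
  rw [hn1, zpow_neg_one, ← div_eq_mul_inv] at hvn
  exact hvn

end Fermat.Agent.MR.Field

end
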