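import Fermat.Agent.MR.Field.InterfaceA
import Fermat.Agent.ORD.Dep.UnifW
import Fermat.Agent.ORD.Dep.Unr
import Fermat.Agent.ORD.Dep.Tame

/-!
# MR / Field, task FIELD-A1 : `1 - ζ` is a uniformiser of the level `G_t` (`Stmt_GtLvl`).
-/

set_option autoImplicit false
set_option synthInstance.maxHeartbeats 400000

noncomputable section

namespace Fermat.Agent.MR.Field

open ModularCurve AlgebraicCurve
open Fermat.Agent.S24 (Qbar FF)
open Fermat.Agent.ES.Mid (GQ gal IsDiv)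
open Fermat.Agent.INJ (RedData)
open Fermat.Agent.INJ.Inst (kA)
open Fermat.Agent.ORD.Dep (cst rd GO Cg InW ActsMu FixF FixK Lvl UnitA Sm UnifOn)
open Fermat.Agent.BR.Inst (IsGaussS twist)

/-! ### valuations of `1 - ζ^k` -/

/-- a root of unity has valuation `1`. -/
theorem GtLvl_val_root {L : Type*} [Field L] (A : ValuationSubring L) {n : ℕ} (hn : n ≠ 0) {ζ : L}
    (hζ : ζ ^ n = 1) : A.valuation ζ = 1 := by
  have h : A.valuation ζ ^ n = 1 := by rw [← map_pow, hζ, map_one]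
  exact (pow_eq_one_iff_of_nonneg zero_le hn).1 h

/-- `v(1 - ζ^k) ≤ v(1 - ζ)`. -/
theorem GtLvl_val_le {L : Type*} [Field L] (A : ValuationSubring L) {ζ : L}
    (hζ : A.valuation ζ = 1) (k : ℕ) : A.valuation (1 - ζ ^ k) ≤ A.valuation (1 - ζ) := by
  have h1 : 1 - ζ ^ k = (∑ i ∈ Finset.range k, ζ ^ i) * (1 - ζ) := (geom_sum_mul_neg ζ k).symm
  have h2 : A.valuation (∑ i ∈ Finset.range k, ζ ^ i) ≤ 1 := by
    refine Valuation.map_sum_le _ fun i _ => ?_
    rw [map_pow, hζ, one_pow]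
  rw [h1, map_mul]
  exact mul_le_of_le_one_left' h2

/-- `v(1 - ζ^k) = v(1 - ζ)` for `k` prime to the order. -/
theorem GtLvl_val_eq {L : Type*} [Field L] (A : ValuationSubring L) {n : ℕ} (hn : 1 < n) {ζ : L}
    (hζ : ζ ^ n = 1) {k : ℕ} (hk : k.Coprime n) :
    A.valuation (1 - ζ ^ k) = A.valuation (1 - ζ) := by
  have hn0 : n ≠ 0 := by omega
  refine le_antisymm (GtLvl_val_le A (GtLvl_val_root A hn0 hζ) k) ?_
  obtain ⟨j, hj⟩ : ∃ j : ℕ, (ζ ^ k) ^ j = ζ := by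
    obtain ⟨j, -, hj⟩ := Nat.exists_mul_mod_eq_one_of_coprime hk hn
    refine ⟨j, ?_⟩
    rw [← pow_mul, ← Nat.div_add_mod (k * j) n, hj, pow_add, pow_mul, hζ, one_pow, one_mul, pow_one]
  have h1 : A.valuation (ζ ^ k) = 1 := by rw [map_pow, GtLvl_val_root A hn0 hζ, one_pow]
  have := GtLvl_val_le A h1 j
  rwa [hj] at this

/-- `v(p) = v(1 - ζ)^(p-1)`. -/
theorem GtLvl_val_p {L : Type*} [Field L] (A : ValuationSubring L) {p : ℕ} (hp : p.Prime) {ζ : L}
    (hζ : IsPrimitiveRoot ζ p) : A.valuation (p : L) = A.valuation (1 - ζ) ^ (p - 1) := by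
  obtain ⟨n, rfl⟩ : ∃ n, p = n + 1 := ⟨p - 1, (Nat.succ_pred_eq_of_pos hp.pos).symm⟩
  have h := hζ.prod_one_sub_pow_eq_order
  have h' : ((n + 1 : ℕ) : L) = ∏ k ∈ Finset.range n, (1 - ζ ^ (k + 1)) := by
    rw [h]; push_cast; rfl
  rw [h', map_prod, Nat.add_sub_cancel]
  rw [Finset.prod_congr rfl (g := fun _ => A.valuation (1 - ζ)), Finset.prod_const,
    Finset.card_range]
  intro k hk
  refine GtLvl_val_eq A hp.one_lt hζ.pow_eq_one ?_
  refine (Nat.Coprime.symm ?_)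
  rw [hp.coprime_iff_not_dvd]
  intro hd
  have := Nat.le_of_dvd (Nat.succ_pos k) hd
  have := Finset.mem_range.1 hk
  omega

/-! ### auxiliary facts -/

/-- a natural number which is a nonunit of `A` is divisible by `p`. -/
theorem GtLvl_dvd_of_mem_nonunits {p : ℕ} (hp : p.Prime) {A : ValuationSubring Qbar}
    (hA : A.LiesOverPrime p) {n : ℕ} (hn : (n : Qbar) ∈ A.nonunits) : p ∣ n := by
  by_contra hm
  have hnA : ((n : ℕ) : A) ∈ IsLocalRing.maximalIdeal A := by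
    rw [← ValuationSubring.coe_mem_nonunits_iff]
    push_cast
    exact hn
  have hpA : ((p : ℕ) : A) ∈ IsLocalRing.maximalIdeal A := by
    rw [← ValuationSubring.coe_mem_nonunits_iff]
    push_cast
    exact hA
  have hcop : Nat.Coprime p n := (Nat.Prime.coprime_iff_not_dvd hp).2 hm
  obtain ⟨a, b, hab⟩ := Nat.isCoprime_iff_coprime.2 hcop
  have h1 : (1 : A) ∈ IsLocalRing.maximalIdeal A := by
    have e : (1 : A) = (a : A) * ((p : ℕ) : A) + (b : A) * ((n : ℕ) : A) := by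
      have := congrArg (Int.cast : ℤ → A) hab.symm
      push_cast at this
      exact this
    rw [e]
    exact Ideal.add_mem _ (Ideal.mul_mem_left _ _ hpA) (Ideal.mul_mem_left _ _ hnA)
  exact (Ideal.ne_top_iff_one _).1 (IsLocalRing.maximalIdeal.isMaximal A).ne_top h1

theorem GtLvl_exists_actsMu {p : ℕ} (hp : 0 < p) {ζ : Qbar} (hζ : IsPrimitiveRoot ζ p) (s : GQ) :
    ∃ c : ℕ, ActsMu p s c := by
  have : NeZero p := ⟨hp.ne'⟩
  have h1 : (s ζ) ^ p = 1 := by rw [← map_pow, hζ.pow_eq_one, map_one]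
  obtain ⟨c, -, hc⟩ := hζ.eq_pow_of_pow_eq_one h1
  refine ⟨c, fun ξ hξ => ?_⟩
  obtain ⟨i, -, hi⟩ := hζ.eq_pow_of_pow_eq_one hξ
  rw [← hi, map_pow, ← hc, ← pow_mul, ← pow_mul, mul_comm]

theorem GtLvl_unitA_iff (A : ValuationSubring Qbar) {a : Qbar} (ha : a ≠ 0) :
    UnitA A a ↔ A.valuation a = 1 := by
  constructor
  · rintro ⟨h1, h2⟩
    refine le_antisymm ((ValuationSubring.valuation_le_one_iff A _).2 h1) ?_
    have h := (ValuationSubring.valuation_le_one_iff A _).2 h2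
    rw [map_inv₀] at h
    exact (inv_le_one₀ (zero_lt_iff.2 ((Valuation.ne_zero_iff _).2 ha))).1 h
  · intro h
    refine ⟨(ValuationSubring.valuation_le_one_iff A _).1 h.le,
      (ValuationSubring.valuation_le_one_iff A _).1 ?_⟩
    rw [map_inv₀, h, inv_one]

/-- the elements of inertia fixing `w = (-p)^(1/(p-1))` fix `μ_p`. -/
theorem GtLvl_le {p : ℕ} (hp : p.Prime) {A : ValuationSubring Qbar} (hA : A.LiesOverPrime p)
    {ζ : Qbar} (hζ : IsPrimitiveRoot ζ p) {w : Qbar} (hw : w ^ (p - 1) = -(p : Qbar))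
    (hw0 : w ≠ 0) {s : GQ} (hsI : s ∈ A.inertiaSubgroupIn ℚ) (hsw : s w = w) : s ∈ Gt A p := by
  refine ⟨hsI, ?_⟩
  obtain ⟨c, hc⟩ := GtLvl_exists_actsMu hp.pos hζ s
  have h1 := ORD.Dep.stmt_Tame p hp A hA w hw s hsI c hc
  rw [hsw, mul_inv_cancel₀ hw0] at h1
  have hc0 : c ≠ 0 := by
    rintro rfl
    rw [Nat.cast_zero, sub_zero] at h1
    exact (A.mem_nonunits_iff.1 h1).ne (map_one _)
  have h2 : (((c - 1 : ℕ)) : Qbar) ∈ A.nonunits := by
    rw [Nat.cast_sub (Nat.one_le_iff_ne_zero.2 hc0), Nat.cast_one, ← neg_sub]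
    rw [A.mem_nonunits_iff] at h1 ⊢
    rwa [Valuation.map_neg]
  obtain ⟨m, hm⟩ := GtLvl_dvd_of_mem_nonunits hp hA h2
  have hc' : c = 1 + p * m := by omega
  intro z hz
  rw [hc z hz, hc', pow_add, pow_one, pow_mul, hz, one_pow, mul_one]

/-- (A1) `1 - ζ` is a uniformiser of the level `G_t`. -/
theorem gtLvl : Stmt_GtLvl := by
  intro p hp _ A hA ζ hζ
  have hvp : A.valuation (p : Qbar) = A.valuation (1 - ζ) ^ (p - 1) := GtLvl_val_p A hp hζ
  have hp1 : 0 < p - 1 := Nat.sub_pos_of_lt hp.one_lt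
  have hz0 : 1 - ζ ≠ 0 := sub_ne_zero.2 (hζ.ne_one hp.one_lt).symm
  refine ⟨⟨Gt_le_inertia A p, ?_, ⟨hz0, ?_⟩, ?_⟩, hvp⟩
  · intro s hs
    rw [map_sub, map_one, hs.2 ζ hζ.pow_eq_one]
  · rw [A.mem_nonunits_iff]
    by_contra h
    have h' : 1 ≤ A.valuation (1 - ζ) := not_lt.1 h
    have h2 : 1 ≤ A.valuation (1 - ζ) ^ (p - 1) := one_le_pow₀ h'
    rw [← hvp] at h2
    exact absurd ((A.mem_nonunits_iff).1 hA) (not_lt.2 h2)
  · intro a ha hfa
    obtain ⟨w, hw⟩ := IsAlgClosed.exists_pow_nat_eq (-(p : Qbar)) hp1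
    obtain ⟨hSm, hUnif⟩ := ORD.Dep.stmt_UnifW p hp A hA w hw
    have halg : Algebra.IsAlgebraic ℚ Qbar := AlgebraicClosure.isAlgebraic ℚ
    have hwint : IsIntegral ℚ w := (Algebra.IsAlgebraic.isAlgebraic w).isIntegral
    have hfin : FiniteDimensional ℚ (IntermediateField.adjoin ℚ {w}) :=
      IntermediateField.adjoin.finiteDimensional hwint
    have hwmem : w ∈ IntermediateField.adjoin ℚ {w} :=
      IntermediateField.mem_adjoin_simple_self ℚ w
    have hLvl : Lvl A (A.inertiaSubgroupIn ℚ ⊓ (IntermediateField.adjoin ℚ {w}).fixingSubgroup) w :=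
      ORD.Dep.stmt_Unr p hp A hA _ hfin w hwmem hSm hUnif
    obtain ⟨n, hn⟩ := hLvl.unif a ha
      (fun σ hσ => hfa σ (GtLvl_le hp hA hζ hw hSm.1 hσ.1 (hLvl.fix σ hσ)))
    refine ⟨n, ?_⟩
    have hvw : A.valuation w = A.valuation (1 - ζ) := by
      have h : A.valuation w ^ (p - 1) = A.valuation (1 - ζ) ^ (p - 1) := by
        rw [← map_pow, hw, Valuation.map_neg, hvp]
      exact (pow_left_inj₀ zero_le zero_le hp1.ne').1 h
    rw [GtLvl_unitA_iff A (mul_ne_zero ha (zpow_ne_zero _ hSm.1)), map_mul, map_zpow₀, hvw] at hn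
    rw [GtLvl_unitA_iff A (mul_ne_zero ha (zpow_ne_zero _ hz0)), map_mul, map_zpow₀]
    exact hn

end Fermat.Agent.MR.Field

end
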