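import Fermat.Agent.MR.Field.InterfaceA
import Fermat.Agent.ORD.Dep.Unr
import Fermat.Agent.ORD.Dep.Disc
import Fermat.Agent.ORD.Dep.UnifW

/-!
# MR / Field : (A2) `p` is a uniformiser of the inertia field (helper71, task 1595)

`iLvl : Stmt_ILvl`, from `ORD.Dep.stmt_Unr` with `L₀ = ⊥`, `π = p`.
-/

set_option autoImplicit false
set_option synthInstance.maxHeartbeats 400000

noncomputable section

namespace Fermat.Agent.MR.Field

open ModularCurve AlgebraicCurve
open Fermat.Agent.S24 (Qbar FF)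
open Fermat.Agent.ES.Mid (GQ gal IsDiv)
open Fermat.Agent.ORD.Dep (cst rd GO Cg InW ActsMu FixF FixK Lvl)

/-- **(A2)** -/
theorem iLvl : Stmt_ILvl := by
  intro p hp A hA
  have hA' : A.valuation (p : Qbar) < 1 := (ValuationSubring.mem_nonunits_iff A).1 hA
  have hp0 : (p : Qbar) ≠ 0 := by exact_mod_cast hp.ne_zero
  have hv0 : A.valuation (p : Qbar) ≠ 0 := (A.valuation.ne_zero_iff).2 hp0
  have h := ORD.Dep.stmt_Unr p hp A hA ⊥ inferInstance (p : Qbar) (natCast_mem _ p) ⟨hp0, hA⟩ ?_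
  · rwa [IntermediateField.fixingSubgroup_bot, inf_top_eq] at h
  · intro a ha0 ha
    obtain ⟨r, rfl⟩ := IntermediateField.mem_bot.1 ha
    have hr : r ≠ 0 := by
      rintro rfl
      exact ha0 (map_zero _)
    obtain ⟨m, hm⟩ := ORD.Dep.Disc_val_rat A p hp hA' r hr
    refine ⟨m, ORD.Dep.UnifW_unitA_of_val ?_⟩
    rw [map_mul, map_zpow₀, zpow_neg, eq_ratCast, hm, mul_inv_cancel₀ (zpow_ne_zero _ hv0)]

end Fermat.Agent.MR.Field

end
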