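import Fermat.Agent.MR.Field.InterfaceB
import Fermat.Agent.MR.Lift.ResP
import Fermat.Agent.MR.Skel.InWOfRed
import Fermat.Agent.ORD.Dep.All

/-!
# MR / Field (B-LIFT) : every element of the residue field of `FF (M p)` at `v_∞` lifts to
`FF (M p)^I`  (task 1601)
-/

set_option autoImplicit false
set_option synthInstance.maxHeartbeats 400000

noncomputable section

namespace Fermat.Agent.MR.Field

open ModularCurve AlgebraicCurve
open Fermat.Agent.S24 (Qbar FF)
open Fermat.Agent.ES.Mid (GQ gal IsDiv)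
open Fermat.Agent.INJ (RedData)
open Fermat.Agent.INJ.Inst (kA)
open Fermat.Agent.ORD.Dep (cst rd GO Cg InW ActsMu FixF FixK Lvl)
open Fermat.Agent.BR.Inst (IsGaussS twist)

/-- rationality does not depend on the level. -/
theorem LiftFixP_fix (M N : ℕ) (H : Subgroup GQ) (y' : FF M) (y : FF N)
    (hy : (y : LaurentSeries Qbar) = (y' : LaurentSeries Qbar)) (hfix : FixF M H y') :
    FixF N H y := by
  intro σ hσ
  apply Subtype.ext
  have h : ((gal M σ y' : FF M) : LaurentSeries Qbar) = (y' : LaurentSeries Qbar) :=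
    congrArg Subtype.val (hfix σ hσ)
  rw [ES.Mid.coe_gal] at h
  rw [ES.Mid.coe_gal, hy, h]

/-- embedding of the levels. -/
theorem LiftFixP_emb (M N : ℕ) [NeZero M] [NeZero N] (h : M ∣ N) (y' : FF M) :
    ∃ y : FF N, (y : LaurentSeries Qbar) = (y' : LaurentSeries Qbar) :=
  ⟨⟨(y' : LaurentSeries Qbar), INJ.Inst.Descent.bar_le h y'.2⟩, rfl⟩

theorem liftFixP : Stmt_LiftFixP := by
  intro p hp A hA M _ _ hpM x hx
  have hmem : rd A (x : LaurentSeries Qbar) ∈ S28.Kf (kA A) M :=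
    Lift.stmt_ResP p hp A hA M hpM (x : LaurentSeries Qbar) x.2 hx
  obtain ⟨G, hGO, hGrd⟩ := Skel.InWOfRed_surj p hp A hA M hpM ⟨_, hmem⟩
  obtain ⟨y', hfix, hyGO, hyrd⟩ := ORD.Dep.all_LiftFix p hp A hA M hpM G hGO
  obtain ⟨y, hy⟩ := LiftFixP_emb M (M * p) (dvd_mul_right M p) y'
  refine ⟨y, LiftFixP_fix M (M * p) _ y' y hy hfix, ?_, ?_⟩
  · rw [hy]; exact hyGO
  · rw [hy, hyrd, hGrd]

end Fermat.Agent.MR.Field

end

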