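import Fermat.Agent.MR.Field.InterfaceA
import Fermat.Agent.MR.Node.FinalInterface
import Fermat.Agent.ORD.Dep.H90

/-!
# MR / Field : FIELD-B6, the assembly `Stmt_NodePL` (Theorem PL for the classes of `XX`)

`ResHyp.peu` gives `(β, d₀)`; `Stmt_AOut` gives `ζ`, the level `G_t` and two cases.
* CASE A (`G_t` fixes `β`): the classes of `XX` are fixed by `G_t`; Hilbert 90 gives a representative
  rational over `G_t`; `PL.Stmt_PLA` with `w = 1 - ζ`.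
* CASE B: Hilbert 90 over `H = Hb A p β`; `Stmt_CongB`; `PL.Stmt_PLC`.
-/

set_option autoImplicit false
set_option synthInstance.maxHeartbeats 400000

noncomputable section

namespace Fermat.Agent.MR.Field

open ModularCurve AlgebraicCurve
open Fermat.Agent.S24 (Qbar FF)
open Fermat.Agent.ES.Mid (GQ gal IsDiv)
open Fermat.Agent.INJ (RedData)
open Fermat.Agent.INJ.Inst (kA)
open Fermat.Agent.ORD.Dep (cst rd GO Cg InW ActsMu FixF FixK Lvl)
open Fermat.Agent.BR.Inst (IsGaussS twist)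

/-- inertia preserves the two norms and `a`, `b`. -/
theorem NodePL_pres (hB : Stmt_Bridge) (hT : Stmt_TwistVal) (N : ℕ) [NeZero N]
    (A : ValuationSubring Qbar) (L : IntermediateField (kA A) (LaurentSeries (kA A)))
    (D : RedData Qbar (FF N) (kA A) L) (hG : IsGaussS N A L D) (W : FF N ≃ₐ[Qbar] FF N)
    (hW : ∀ (σ : GQ) (u : FF N), W (gal N σ u) = gal N σ (W u)) (a b : FF N)
    (τ : GQ) (hτ : τ ∈ A.inertiaSubgroupIn ℚ) (ha : gal N τ a = a) (hb : gal N τ b = b) :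
    PL.Pres (RED.gal N τ) D.O (twist D W).O a b := by
  obtain ⟨-, -, -, hB4, -⟩ := hB N A L D hG
  refine ⟨fun x => hB4 τ hτ x, fun x => ?_, ha, hb⟩
  rw [gal_smul, (hT Qbar (FF N) (kA A) L D W (gal N τ x) x).2.2, hW]
  exact hB4 τ hτ _

/-- a constant multiple, times a `p`-th power, of an element of `XX` is in `XX`. -/
theorem NodePL_mem (p : ℕ) [NeZero p] (M : ℕ) (T : Skel.Setting p M) (XX : Set (FF (M * p)))
    (hcg : Skel.IsCG p M T XX) (u : FF (M * p)) (hu : u ∈ XX) (c : Qbar) (h : FF (M * p))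
    (hc : c ≠ 0) (hh : h ≠ 0) : algebraMap Qbar (FF (M * p)) c * u * h ^ p ∈ XX := by
  obtain ⟨c', hc'⟩ := IsAlgClosed.exists_pow_nat_eq c (Nat.pos_of_ne_zero (NeZero.ne p))
  have hc'0 : c' ≠ 0 := by
    rintro rfl
    rw [zero_pow (NeZero.ne p)] at hc'
    exact hc hc'.symm
  have h1 : algebraMap Qbar (FF (M * p)) c ∈ XX := by
    rw [← hc', map_pow]
    apply hcg.pow
    rw [Ne, map_eq_zero]
    exact hc'0
  exact hcg.mul _ (hcg.mul _ h1 _ hu) _ (hcg.pow h hh)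

/-- the value group of the constants of a level. -/
theorem NodePL_vg (A : ValuationSubring Qbar) (H : Subgroup GQ) (π : Qbar) (hL : Lvl A H π)
    (c : Qbar) (hc : c ≠ 0) (hfix : FixK H c) : ∃ m : ℤ, A.valuation c = A.valuation π ^ m := by
  obtain ⟨m, h1, h2⟩ := hL.unif c hc hfix
  refine ⟨m, ?_⟩
  have hπ : A.valuation π ≠ 0 := (map_ne_zero _).2 hL.sm.1
  have h3 : A.valuation (c * π ^ (-m)) = 1 := by
    have hx0 : c * π ^ (-m) ≠ 0 := mul_ne_zero hc (zpow_ne_zero _ hL.sm.1)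
    have h4 := (A.valuation_le_one_iff _).2 h1
    have h5 := (A.valuation_le_one_iff _).2 h2
    rw [map_inv₀] at h5
    have h6 : A.valuation (c * π ^ (-m)) ≠ 0 := (map_ne_zero _).2 hx0
    exact le_antisymm h4 ((inv_le_one₀ (zero_lt_iff.2 h6)).1 h5)
  rw [map_mul, map_zpow₀, zpow_neg] at h3
  exact (mul_inv_eq_one₀ (zpow_ne_zero _ hπ)).1 h3

/-- **FIELD-B6** : Theorem PL for the classes of `XX`. -/
theorem nodePL (hA : Stmt_AOut) (hC : Stmt_CongB) (hB : Stmt_Bridge) (hT : Stmt_TwistVal)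
    (hPLA : PL.Stmt_PLA) (hPLC : PL.Stmt_PLC) (hDiv : Node.Stmt_DivOf) : Stmt_NodePL := by
  intro p _ hp h5 A hAp M _ _ hpM T XX hRes L D hG a b ι R n hSet hResK hLoc hN3 hab hPresR u hu
  obtain ⟨β, d₀, hβ, hd, hdi, hd1, hdfix, hpeu⟩ := hRes.peu
  have hPeu : PeuData A p β d₀ := ⟨hβ, hd, hdi, hd1, hdfix⟩
  obtain ⟨ζ, hζ, hLvl, hval, hcase⟩ := hA p hp h5 A hAp (M * p) L D hG T.W T.gal_comm β d₀ hPeu
  have hu0 : u ≠ 0 := (hRes.cg.isDiv u hu).1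
  have hPres : ∀ τ ∈ A.inertiaSubgroupIn ℚ,
      PL.Pres (RED.gal (M * p) τ) D.O (twist D T.W).O a b := fun τ hτ =>
    NodePL_pres hB hT (M * p) A L D hG T.W T.gal_comm a b τ hτ (hab τ hτ).1 (hab τ hτ).2
  rcases hcase with hfixβ | ⟨σ, hσ, a₀, hFD₁, hFD₂, hRoots⟩
  · -- CASE A
    obtain ⟨c, h, hc, hh, hfix⟩ := ORD.Dep.stmt_H90 (M * p) p (Gt A p) u hp.pos hu0
      (fun s hs => hpeu s (mem_Gt.1 hs).1 (mem_Gt.1 hs).2 (hfixβ s hs) u hu)
    have hXX := NodePL_mem p M T XX hRes.cg u hu c h hc hh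
    obtain ⟨Dv, hDv⟩ := hDiv (M * p) p _ hp.pos (hRes.cg.isDiv _ hXX)
    refine ⟨c, h, hc, hh, ?_⟩
    refine hPLA Qbar (FF (M * p)) p A D.O (twist D T.W).O a b ι R n (autSet (M * p) (Gt A p))
      (1 - ζ) hp hSet hResK hLoc hN3 hLvl.sm.1 (A.mem_nonunits_iff.1 hLvl.sm.2) hval ?_ ?_
      _ Dv (hRes.cg.isDiv _ hXX).1 hDv ?_
    · rintro g ⟨s, hs, rfl⟩
      exact ⟨hPres s (Gt_le_inertia A p hs), fun i => hPresR s (Gt_le_inertia A p hs) i⟩
    · intro c' hc' hfix'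
      exact NodePL_vg A (Gt A p) (1 - ζ) hLvl c' hc' (fun s hs => hfix' _ ⟨s, hs, rfl⟩)
    · rintro g ⟨s, hs, rfl⟩
      exact hfix s hs
  · -- CASE B
    obtain ⟨c, h, hc, hh, hfix⟩ := ORD.Dep.stmt_H90 (M * p) p (Hb A p β) u hp.pos hu0
      (fun s hs => hpeu s (mem_Gt.1 hs.1).1 (mem_Gt.1 hs.1).2 hs.2 u hu)
    have hXX := NodePL_mem p M T XX hRes.cg u hu c h hc hh
    obtain ⟨Dv, hDv⟩ := hDiv (M * p) p _ hp.pos (hRes.cg.isDiv _ hXX)
    obtain ⟨C₁, C₂, hC₁, hC₂, h₁, h₂⟩ := hC p hp h5 A hAp M hpM T XX hRes L D hG β ζ a₀ σ hσ hLvl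
      hFD₁ hFD₂ hRoots _ hXX hfix
    have hσI := Gt_le_inertia A p hσ
    refine ⟨c, h, hc, hh, ?_⟩
    refine hPLC Qbar (FF (M * p)) p A D.O (twist D T.W).O a b ι R n (autSet (M * p) (Hb A p β))
      (RED.gal (M * p) σ) (fixSub (M * p) (Hb A p β)) ζ β a₀ hSet hResK hLoc hN3 hFD₁ hFD₂
      (hab σ hσI).1 (fun i => hPresR σ hσI i) ?_ ?_ _ Dv C₁ C₂ (hRes.cg.isDiv _ hXX).1 hDv ?_
      hC₁ hC₂ h₁ h₂
    · rintro g ⟨s, hs, rfl⟩
      have hsI := Gt_le_inertia A p (Hb_le_Gt A p β hs)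
      exact ⟨hPres s hsI, fun i => hPresR s hsI i⟩
    · intro x hx s hs
      exact hx _ ⟨s, hs, rfl⟩
    · rintro g ⟨s, hs, rfl⟩
      exact hfix s hs

end Fermat.Agent.MR.Field

end
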