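import Fermat.Agent.MR.Field.InterfaceA
import Fermat.Agent.MR.Node.FinalInterface
import Fermat.Agent.S18.Glue28

/-!
# MR / Field : FIELD-OUT, the adapter `Node.Stmt_NodesOut` from `Field.Stmt_NodePL` and `GeoFacts`
-/

set_option autoImplicit false
set_option synthInstance.maxHeartbeats 400000

noncomputable section

namespace Fermat.Agent.MR.Field

open ModularCurve AlgebraicCurve
open Fermat.Agent.S24 (Qbar FF)
open Fermat.Agent.ES.Mid (GQ gal IsDiv)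
open Fermat.Agent.INJ (RedData)
open Fermat.Agent.INJ.Inst (kA)
open Fermat.Agent.BR.Inst (IsGaussS twist)

theorem NodesOut_val_one {K F k Fb : Type*} [Field K] [Field F] [Algebra K F] [Field k] [Field Fb]
    [Algebra k Fb] {D : RedData K F k Fb} {x : F} (h : D.rd x ≠ 0) : D.O.valuation x = 1 := by
  have h1 : D.O.valuation x ≤ 1 := (D.O.valuation_le_one_iff x).2 (RedData.mem_of_rd_ne_zero h)
  have h2 : D.O.valuation x⁻¹ ≤ 1 :=
    (D.O.valuation_le_one_iff _).2 (RedData.inv_mem_of_rd_ne_zero h)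
  have hx0 : x ≠ 0 := by
    rintro rfl
    exact h RedData.rd_zero
  rw [map_inv₀, inv_le_one₀ (zero_lt_iff.2 ((map_ne_zero _).2 hx0))] at h2
  exact le_antisymm h1 h2

theorem nodesOut (hNP : Stmt_NodePL) (hPR : Stmt_PresRs) (hNL : Node.Stmt_NodeLoc) :
    Node.Stmt_NodesOut := by
  intro p _ hp h5 A hA M _ _ hpM _ T XX hRes L D₁ Tc a b τ jb G u hu
  have hAC : IsAlgClosed (kA A) := S18G.isAlgClosed_kA A
  have hDA : D₁.A = A := G.gauss.gauss.hA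
  have hDA' : (twist D₁ T.W).A = A := hDA
  have hg₁ : PL.Gauss A D₁.O := by
    have h := PL.Gauss.ofRedData D₁
    rwa [hDA] at h
  have hg₂ : PL.Gauss A (twist D₁ T.W).O := by
    have h := PL.Gauss.ofRedData (twist D₁ T.W)
    rwa [hDA'] at h
  have hSet : PL.Setting p A D₁.O (twist D₁ T.W).O a b :=
    { g₁ := hg₁
      g₂ := hg₂
      p_ne := Nat.cast_ne_zero.2 hp.ne_zero
      p_small := hA
      ab := G.ab
      a_unit := NodesOut_val_one G.rd₂a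
      b_unit := NodesOut_val_one G.rd₁b }
  have hloc : ∀ x₁ x₂ : ValuationSubring L, Node.IsNode D₁ (twist D₁ T.W) Tc τ x₁ x₂ →
      PL.LocData A D₁.O (twist D₁ T.W).O a b (Node.Rs D₁ (twist D₁ T.W) Tc x₁)
        (Node.ns D₁ (twist D₁ T.W) Tc x₁) ∧
      PL.N3 (twist D₁ T.W).O a (Node.Rs D₁ (twist D₁ T.W) Tc x₁)
        (Node.ns D₁ (twist D₁ T.W) Tc x₁) := by
    intro x₁ x₂ hn
    obtain ⟨h1, h2, -⟩ := hNL Qbar (FF (M * p)) (kA A) L D₁ (twist D₁ T.W) Tc τ G.std x₁ x₂ hn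
      a G.a_mem b G.b_mem G.rd₁a G.rd₂b (G.unifB x₁ x₂ hn) (G.unifA x₁ x₂ hn)
    rw [hDA] at h1
    exact ⟨h1, h2⟩
  obtain ⟨c, h, hc, hh, δ, hδ⟩ := hNP p hp h5 A hA M hpM T XX hRes L D₁ G.gauss a b
    {x : ValuationSubring L × ValuationSubring L //
      Node.IsNode D₁ (twist D₁ T.W) Tc τ x.1 x.2}
    (fun s => Node.Rs D₁ (twist D₁ T.W) Tc s.1.1) (fun s => Node.ns D₁ (twist D₁ T.W) Tc s.1.1)
    hSet G.std.places.resK (fun s => (hloc s.1.1 s.1.2 s.2).1) (fun s => (hloc s.1.1 s.1.2 s.2).2)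
    (fun σ _ => ⟨G.gal_a σ, G.gal_b σ⟩)
    (fun σ hσ s => hPR (M * p) A L D₁ G.gauss T.W T.gal_comm σ hσ Tc (G.gal_T σ) s.1.1) u hu
  exact ⟨c, h, δ, hc, hh, fun x₁ x₂ hn => hδ ⟨(x₁, x₂), hn⟩⟩

end Fermat.Agent.MR.Field

end
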