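import Fermat.Agent.MR.Field.InterfaceA
import Fermat.Agent.MR.Node.GeoPres

/-!
# MR / Field : (A-PRESR) inertia preserves the local rings `Node.Rs` (adapter of `Node.presAbs`)
-/

set_option autoImplicit false
set_option synthInstance.maxHeartbeats 400000

noncomputable section

namespace Fermat.Agent.MR.Field

open ModularCurve AlgebraicCurve
open Fermat.Agent.S24 (Qbar FF)
open Fermat.Agent.ES.Mid (GQ gal IsDiv)
open Fermat.Agent.INJ (RedData)
open Fermat.Agent.INJ.Inst (kA)
open Fermat.Agent.ORD.Dep (cst rd GO Cg InW ActsMu FixF FixK Lvl)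
open Fermat.Agent.BR.Inst (IsGaussS twist)

theorem presRs (hB : Stmt_Bridge) : Stmt_PresRs := by
  intro N _ A L D hG W hW s hs Tc hTc x₁
  obtain ⟨-, -, -, h4, h5⟩ := hB N A L D hG
  have h1 : ∀ z : FF N, RED.gal N s • z ∈ D.O ↔ z ∈ D.O := by
    intro z
    rw [gal_smul, ← ValuationSubring.valuation_le_one_iff, ← ValuationSubring.valuation_le_one_iff,
      h4 s hs z]
  have h2 : ∀ z : FF N, RED.gal N s • z ∈ (twist D W).O ↔ z ∈ (twist D W).O := by
    intro z
    show W (gal N s z) ∈ D.O ↔ W z ∈ D.O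
    rw [hW]
    exact h1 (W z)
  exact Node.presAbs Qbar (FF N) (kA A) L D (twist D W) Tc (RED.gal N s) hTc h1 h2
    (fun z hz => h5 s hs z hz) x₁

end Fermat.Agent.MR.Field

end
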