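import Fermat.Agent.MR.Field.InterfaceB
import Fermat.Agent.ORD.Dep.All

/-!
# MR / Field / RepFixP : `ORD.Dep.Stmt_RepFix` at the level `M p`
(copy of the proof of `ORD.Dep.stmt_RepFix`, the lifting statement being a hypothesis at the level `N`)
-/

set_option autoImplicit false
set_option synthInstance.maxHeartbeats 400000

noncomputable section

namespace Fermat.Agent.MR.Field

open ModularCurve AlgebraicCurve
open Fermat.Agent.S24 (Qbar FF)
open Fermat.Agent.ES.Mid (GQ gal IsDiv)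
open Fermat.Agent.INJ.Inst (kA)
open Fermat.Agent.ORD.Dep (cst rd GO Cg InW ActsMu FixF FixK Lvl Sm Stmt_GOApi Stmt_GaussDisc Stmt_Teich
  stmt_GOApi stmt_GaussDisc' stmt_Teich)

open Fermat.Agent.ORD.Dep.RepFixAux in
theorem RepFixP_core (hApi : Stmt_GOApi) (hGD : Stmt_GaussDisc) (hT : Stmt_Teich)
    (p : ℕ) (hp : p.Prime) (A : ValuationSubring Qbar) (hA : A.LiesOverPrime p)
    (H : Subgroup GQ) (π : Qbar) (hL : Lvl A H π) (N : ℕ) [NeZero N]
    (hLF : ∀ x : FF N, GO A (x : LaurentSeries Qbar) →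
      ∃ y : FF N, FixF N (A.inertiaSubgroupIn ℚ) y ∧ GO A (y : LaurentSeries Qbar) ∧
        rd A (y : LaurentSeries Qbar) = rd A (x : LaurentSeries Qbar))
    (u : FF N) (hu : FixF N H u) (hW : InW A N p u) :
    ∃ (c : Qbar) (g : FF N), c ≠ 0 ∧ FixK H c ∧ g ≠ 0 ∧ FixF N H g ∧
      Cg A π (cst c * (u : LaurentSeries Qbar) * (g : LaurentSeries Qbar) ^ p) 1 := by
  obtain ⟨c1, g1, hc1, hg1, hx1⟩ := hW
  obtain ⟨api1, api2, api3, api4, -, api6, -⟩ := hApi A
  -- convenient forms of the API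
  have gmul : ∀ x y, GO A x → GO A y → GO A (x * y) := fun x y hx hy => (api1 x y hx hy).2.1
  have rmul : ∀ x y, GO A x → GO A y → rd A (x * y) = rd A x * rd A y :=
    fun x y hx hy => (api1 x y hx hy).2.2.2.2.1
  have gpow : ∀ x, GO A x → ∀ n : ℕ, GO A (x ^ n) ∧ rd A (x ^ n) = rd A x ^ n := by
    intro x hx n
    induction n with
    | zero =>
      rw [pow_zero, pow_zero]
      exact ⟨go_one A, rd_one A⟩
    | succ n ih =>
      rw [pow_succ, pow_succ]
      exact ⟨gmul _ _ ih.1 hx, by rw [rmul _ _ ih.1 hx, ih.2]⟩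
  have hπ0 : π ≠ 0 := hL.sm.1
  have hπA : π ∈ A := mem_of_sm hL.sm
  have one_ne : (1 : LaurentSeries (kA A)) ≠ 0 := one_ne_zero
  have hx1G : GO A (cst c1 * (u : LaurentSeries Qbar) * (g1 : LaurentSeries Qbar) ^ p) :=
    go_of_rd_ne_zero (by rw [hx1]; exact one_ne)
  have hu0 : u ≠ 0 := by
    rintro rfl
    have : cst c1 * ((0 : FF N) : LaurentSeries Qbar) * (g1 : LaurentSeries Qbar) ^ p = 0 := by
      simp
    rw [this, rd_zero] at hx1
    exact one_ne hx1.symm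
  -- normalisation of `u` and `g1`
  obtain ⟨n, hu0G, hu0r⟩ := hGD A H π hL N u hu0 hu
  obtain ⟨c2, hc2, hg2G, hg2r⟩ := api4 N g1 hg1
  set u0 : LaurentSeries Qbar := cst (π ^ (-n)) * (u : LaurentSeries Qbar) with hu0def
  set g2 : LaurentSeries Qbar := cst c2 * (g1 : LaurentSeries Qbar) with hg2def
  set c3 : Qbar := c1 * π ^ n * (c2⁻¹) ^ p with hc3def
  have hyG : GO A (u0 * g2 ^ p) := gmul _ _ hu0G (gpow _ hg2G p).1
  have hyr : rd A (u0 * g2 ^ p) = rd A u0 * rd A g2 ^ p := by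
    rw [rmul _ _ hu0G (gpow _ hg2G p).1, (gpow _ hg2G p).2]
  have hyr0 : rd A (u0 * g2 ^ p) ≠ 0 := by
    rw [hyr]; exact mul_ne_zero hu0r (pow_ne_zero _ hg2r)
  have hy0 : u0 * g2 ^ p ≠ 0 := by
    intro h0
    rw [h0, rd_zero] at hyr0
    exact hyr0 rfl
  have hx1eq : cst c1 * (u : LaurentSeries Qbar) * (g1 : LaurentSeries Qbar) ^ p =
      cst c3 * (u0 * g2 ^ p) := by
    have e : c3 * π ^ (-n) * c2 ^ p = c1 := by
      rw [hc3def, zpow_neg, inv_pow]
      have h1 : π ^ n ≠ 0 := zpow_ne_zero _ hπ0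
      have h2 : c2 ^ p ≠ 0 := pow_ne_zero _ hc2
      field_simp
    rw [hu0def, hg2def, mul_pow, ← cst_pow]
    calc cst c1 * (u : LaurentSeries Qbar) * (g1 : LaurentSeries Qbar) ^ p
        = cst (c3 * π ^ (-n) * c2 ^ p) * (u : LaurentSeries Qbar) *
            (g1 : LaurentSeries Qbar) ^ p := by rw [e]
      _ = _ := by
          rw [cst_mul, cst_mul]
          ring
  have hc3eq : cst c3 = (cst c1 * (u : LaurentSeries Qbar) * (g1 : LaurentSeries Qbar) ^ p) *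
      (u0 * g2 ^ p)⁻¹ := by
    rw [hx1eq, mul_assoc, mul_inv_cancel₀ hy0, mul_one]
  obtain ⟨hyiG, hyir⟩ := api3 _ hyG hyr0
  have hc3G : GO A (cst c3) := by rw [hc3eq]; exact gmul _ _ hx1G hyiG
  have hc3A : c3 ∈ A := api6 c3 hc3G
  -- lifts
  obtain ⟨g, hgfix, hgG, hgr⟩ := hLF (algebraMap Qbar (FF N) c2 * g1) hg2G
  have hgr' : rd A (g : LaurentSeries Qbar) = rd A g2 := hgr
  obtain ⟨c4, hc4A, hc4fix, hc34⟩ := hT p hp A hA c3 hc3A
  have hrc : rd A (cst c4) = rd A (cst c3) := by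
    rw [(api2 c4 hc4A).2 hc4A, (api2 c3 hc3A).2 hc3A, residue_eq hc3A hc4A hc34]
  have hc4G : GO A (cst c4) := (api2 c4 hc4A).1
  have hrc3 : rd A (cst c3) ≠ 0 := by
    intro h0
    have := rmul _ _ hc3G hyG
    rw [← hx1eq, hx1, h0, zero_mul] at this
    exact one_ne this
  have hc40 : c4 ≠ 0 := by
    rintro rfl
    apply hrc3
    rw [← hrc]
    rw [cst_zero, rd_zero]
  have hg0 : g ≠ 0 := by
    rintro rfl
    apply hg2r
    rw [← hgr']
    exact rd_zero A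
  have hHI : ∀ σ ∈ H, σ ∈ A.inertiaSubgroupIn ℚ := fun σ hσ => hL.le hσ
  have hcfix : FixK H (c4 * π ^ (-n)) := by
    intro σ hσ
    rw [map_mul, map_zpow₀, hc4fix σ (hHI σ hσ), hL.fix σ hσ]
  have hgfixH : FixF N H g := fun σ hσ => hgfix σ (hHI σ hσ)
  refine ⟨c4 * π ^ (-n), g, mul_ne_zero hc40 (zpow_ne_zero _ hπ0), hcfix, hg0, hgfixH, ?_⟩
  -- the new representative
  set X : LaurentSeries Qbar :=
    cst (c4 * π ^ (-n)) * (u : LaurentSeries Qbar) * (g : LaurentSeries Qbar) ^ p with hXdef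
  have hXeq : X = cst c4 * (u0 * (g : LaurentSeries Qbar) ^ p) := by
    rw [hXdef, hu0def, cst_mul]
    ring
  have hzG : GO A (u0 * (g : LaurentSeries Qbar) ^ p) := gmul _ _ hu0G (gpow _ hgG p).1
  have hXG : GO A X := by rw [hXeq]; exact gmul _ _ hc4G hzG
  have hXr : rd A X = 1 := by
    rw [hXeq, rmul _ _ hc4G hzG, rmul _ _ hu0G (gpow _ hgG p).1, (gpow _ hgG p).2, hgr', hrc,
      ← hyr, ← rmul _ _ hc3G hyG, ← hx1eq, hx1]
  have hm1G : GO A (-1 : LaurentSeries Qbar) := (api1 1 1 (go_one A) (go_one A)).2.2.1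
  have hm1r : rd A (-1 : LaurentSeries Qbar) = -1 := by
    rw [(api1 1 1 (go_one A) (go_one A)).2.2.2.2.2, rd_one]
  have hvG : GO A (X + -1) := (api1 X (-1) hXG hm1G).1
  have hvr : rd A (X + -1) = 0 := by
    rw [(api1 X (-1) hXG hm1G).2.2.2.1, hXr, hm1r, add_neg_cancel]
  -- `v` as an element of `FF N`
  set vF : FF N := algebraMap Qbar (FF N) (c4 * π ^ (-n)) * u * g ^ p + -1 with hvF
  have hvcoe : (vF : LaurentSeries Qbar) = X + -1 := rfl
  have hvfix : FixF N H vF := by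
    intro σ hσ
    rw [hvF, map_add, map_mul, map_mul, map_pow, map_neg, map_one, gal_const, hcfix σ hσ,
      hu σ hσ, hgfixH σ hσ]
  by_cases hv0 : vF = 0
  · refine ⟨0, go_zero A, ?_⟩
    have : X + -1 = 0 := by rw [← hvcoe, hv0]; rfl
    rw [mul_zero, add_zero]
    exact add_neg_eq_zero.1 this
  · obtain ⟨m, htG, htr⟩ := hGD A H π hL N vF hv0 hvfix
    rw [hvcoe] at htG htr
    have hm : 1 ≤ m := by
      by_contra hlt
      have hmem : π ^ (-m) ∈ A := zpow_mem hπA (by omega)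
      apply htr
      rw [rmul _ _ (api2 _ hmem).1 hvG, hvr, mul_zero]
    have hmem : π ^ (m - 1) ∈ A := zpow_mem hπA (by omega)
    refine ⟨cst (π ^ (m - 1)) * (cst (π ^ (-m)) * (X + -1)), gmul _ _ (api2 _ hmem).1 htG, ?_⟩
    have e : π * π ^ (m - 1) * π ^ (-m) = 1 := by
      rw [← zpow_one_add₀ hπ0, ← zpow_add₀ hπ0]
      have : 1 + (m - 1) + -m = 0 := by ring
      rw [this, zpow_zero]
    have e' : cst π * (cst (π ^ (m - 1)) * (cst (π ^ (-m)) * (X + -1))) = X + -1 := by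
      rw [← mul_assoc, ← mul_assoc, ← cst_mul, ← cst_mul, e, cst_one, one_mul]
    rw [e']
    ring

/-- (B-REP) `ORD.Dep.Stmt_RepFix` at the level `M p`. -/
theorem repFixP (hLF : Stmt_LiftFixP) : Stmt_RepFixP := by
  intro p hp A hA H π hL M _ _ hpM u hu hW
  exact RepFixP_core stmt_GOApi stmt_GaussDisc' stmt_Teich p hp A hA H π hL (M * p)
    (hLF p hp A hA M hpM) u hu hW

end Fermat.Agent.MR.Field

end

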