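import Fermat.Agent.MR.Field.InterfaceA
import Fermat.Agent.ORD.Dep.Teich
import Fermat.Agent.ORD.Dep.RepFix

/-!
# MR / Field : FIELD-A5 (task 1598, helper70)

`p`-th roots modulo `m_A` in the inertia field: `Stmt_Roots`.
-/

set_option autoImplicit false
set_option synthInstance.maxHeartbeats 400000

noncomputable section

namespace Fermat.Agent.MR.Field

open ModularCurve AlgebraicCurve
open Fermat.Agent.S24 (Qbar FF)
open Fermat.Agent.ES.Mid (GQ gal IsDiv)
open Fermat.Agent.INJ (RedData)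
open Fermat.Agent.ORD.Dep (FixF FixK ActsMu)

theorem roots : Stmt_Roots := by
  intro p hp A hA N H hH c hc
  obtain ⟨e, he⟩ := IsAlgClosed.exists_pow_nat_eq c hp.pos
  have hev : A.valuation e = 1 := by
    have h1 : A.valuation e ^ p = 1 := by rw [← map_pow, he, hc]
    exact (pow_eq_one_iff.1 h1).resolve_right hp.ne_zero
  have heA : e ∈ A := (A.valuation_le_one_iff e).1 hev.le
  obtain ⟨b, hbA, hbfix, hb⟩ := ORD.Dep.stmt_Teich p hp A hA e heA
  refine ⟨b, ?_, ?_⟩
  · rw [mem_fixSub]
    intro s hs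
    rw [ORD.Dep.RepFixAux.gal_const, hbfix s (hH hs)]
  · rw [← he]
    have hlt : A.valuation (e - b) < 1 := (ValuationSubring.mem_nonunits_iff A).1 hb
    obtain ⟨t, ht⟩ : ∃ t ∈ A, b ^ p - e ^ p = (b - e) * t := by
      refine ⟨∑ i ∈ Finset.range p, b ^ i * e ^ (p - 1 - i), ?_, ?_⟩
      · exact sum_mem fun i _ => mul_mem (pow_mem hbA _) (pow_mem heA _)
      · rw [mul_comm]
        exact ((Commute.all b e).geom_sum₂_mul p).symm
    rw [ht.2, map_mul, ← neg_sub e b, Valuation.map_neg]
    calc A.valuation (e - b) * A.valuation t ≤ A.valuation (e - b) * 1 :=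
          mul_le_mul' le_rfl ((A.valuation_le_one_iff t).2 ht.1)
      _ < 1 := by rw [mul_one]; exact hlt

end Fermat.Agent.MR.Field

end
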