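import Fermat.Agent.MR.Field.InterfaceA

/-!
# MR / Field, package FIELD-A-TWIST (helper91): the norm of the twisted datum.
-/

set_option autoImplicit false
set_option synthInstance.maxHeartbeats 400000

noncomputable section

namespace Fermat.Agent.MR.Field

open Fermat.Agent.INJ (RedData)
open Fermat.Agent.BR.Inst (IsGaussS twist)

/-- comparison of valuations in terms of membership. -/
theorem TwistVal_le_iff {F : Type*} [Field F] (O : ValuationSubring F) (x y : F) :
    O.valuation x ≤ O.valuation y ↔ (y = 0 → x = 0) ∧ x / y ∈ O := by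
  by_cases hy : y = 0
  · subst hy
    rw [map_zero, le_zero_iff, map_eq_zero, div_zero]
    exact ⟨fun h => ⟨fun _ => h, O.zero_mem⟩, fun h => h.1 rfl⟩
  · have hvy : 0 < O.valuation y := zero_lt_iff.2 ((map_ne_zero _).2 hy)
    rw [← O.valuation_le_one_iff, map_div₀, div_le_one₀ hvy]
    exact ⟨fun h => ⟨fun h0 => absurd h0 hy, h⟩, fun h => h.2⟩

theorem TwistVal_le {K F k Fb : Type*} [Field K] [Field F] [Algebra K F] [Field k] [Field Fb]
    [Algebra k Fb] (D : RedData K F k Fb) (W : F ≃ₐ[K] F) (x y : F) :
    (twist D W).O.valuation x ≤ (twist D W).O.valuation y ↔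
      D.O.valuation (W x) ≤ D.O.valuation (W y) := by
  rw [TwistVal_le_iff, TwistVal_le_iff, BR.Inst.mem_twist_O, map_div₀, map_eq_zero_iff W W.injective,
    map_eq_zero_iff W W.injective]

/-- (A-TWIST) the norm of the twisted datum. -/
theorem twistVal : Stmt_TwistVal := by
  intro K F k Fb _ _ _ _ _ _ D W x y
  refine ⟨TwistVal_le D W x y, ?_, ?_⟩
  · rw [← not_le, ← not_le, TwistVal_le D W y x]
  · rw [le_antisymm_iff, le_antisymm_iff, TwistVal_le D W x y, TwistVal_le D W y x]

end Fermat.Agent.MR.Field

end
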