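import Fermat.Agent.MR.Field.InterfaceB
import Fermat.Agent.ORD.Dep.H90
import Fermat.Agent.ORD.Dep.RepFix

/-!
# MR / Field (FIELD-B4) : `Y = const * y * g ^ p`, `y` rational over `G'` and deep, `g` rational
over `H'` (task 1604, helper58)
-/

set_option autoImplicit false
set_option synthInstance.maxHeartbeats 400000

noncomputable section

namespace Fermat.Agent.MR.Field

open ModularCurve AlgebraicCurve
open Fermat.Agent.S24 (Qbar FF)
open Fermat.Agent.ES.Mid (GQ gal IsDiv)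
open Fermat.Agent.ORD.Dep (cst rd GO Cg InW ActsMu FixF FixK Lvl)

theorem YDec_alg_ne_zero (N : ℕ) {c : Qbar} (hc : c ≠ 0) : algebraMap Qbar (FF N) c ≠ 0 :=
  fun h => hc ((map_eq_zero (algebraMap Qbar (FF N))).mp h)

/-- constants are `p`-th powers. -/
theorem YDec_exists_root (p : ℕ) (hp : 0 < p) (c : Qbar) (hc : c ≠ 0) :
    ∃ e : Qbar, e ≠ 0 ∧ e ^ p = c := by
  obtain ⟨e, he⟩ := IsAlgClosed.exists_pow_nat_eq c hp
  refine ⟨e, ?_, he⟩
  rintro rfl
  rw [zero_pow hp.ne'] at he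
  exact hc he.symm

theorem YDec_fix_const (N : ℕ) {H : Subgroup GQ} {c : Qbar} (hc : FixK H c) :
    FixF N H (algebraMap Qbar (FF N) c) := fun s hs => by
  rw [ORD.Dep.RepFixAux.gal_const, hc s hs]

theorem YDec_fix_mul {N : ℕ} {H : Subgroup GQ} {x y : FF N} (hx : FixF N H x) (hy : FixF N H y) :
    FixF N H (x * y) := fun s hs => by rw [map_mul, hx s hs, hy s hs]

theorem YDec_fix_pow {N : ℕ} {H : Subgroup GQ} {x : FF N} (hx : FixF N H x) (n : ℕ) :
    FixF N H (x ^ n) := fun s hs => by rw [map_pow, hx s hs]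

theorem YDec_fix_div {N : ℕ} {H : Subgroup GQ} {x y : FF N} (hx : FixF N H x) (hy : FixF N H y) :
    FixF N H (x / y) := fun s hs => by rw [map_div₀, hx s hs, hy s hs]

theorem YDec_fix_mono {N : ℕ} {H H' : Subgroup GQ} (h : H' ≤ H) {x : FF N} (hx : FixF N H x) :
    FixF N H' x := fun s hs => hx s (h hs)

/-- constants times elements of `XX` times `p`-th powers stay in `XX`. -/
theorem YDec_mem {p M : ℕ} [NeZero p] {T : Skel.Setting p M} {XX : Set (FF (M * p))}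
    (hCG : Skel.IsCG p M T XX) (hp : 0 < p) {c : Qbar} (hc : c ≠ 0) {u g : FF (M * p)}
    (hu : u ∈ XX) (hg : g ≠ 0) : algebraMap Qbar (FF (M * p)) c * u * g ^ p ∈ XX := by
  obtain ⟨e, he0, he⟩ := YDec_exists_root p hp c hc
  have h1 : algebraMap Qbar (FF (M * p)) c ∈ XX := by
    rw [← he, map_pow]
    exact hCG.pow _ (YDec_alg_ne_zero _ he0)
  exact hCG.mul _ (hCG.mul _ h1 _ hu) _ (hCG.pow g hg)

theorem YDec_coe_rep (N : ℕ) (c : Qbar) (u g : FF N) (p : ℕ) :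
    ((algebraMap Qbar (FF N) c * u * g ^ p : FF N) : LaurentSeries Qbar) =
      cst c * (u : LaurentSeries Qbar) * (g : LaurentSeries Qbar) ^ p := rfl

theorem YDec_coe_div (N : ℕ) (g b : FF N) :
    ((g / b : FF N) : LaurentSeries Qbar) = (g : LaurentSeries Qbar) / (b : LaurentSeries Qbar) :=
  rfl

theorem YDec_series_id (c c0 : Qbar) (Y b g : LaurentSeries Qbar) (p : ℕ) (hc0 : c0 ≠ 0)
    (hb : b ≠ 0) :
    cst (c / c0) * (cst c0 * Y * b ^ p) * (g / b) ^ p = cst c * Y * g ^ p := by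
  have hc0' : cst c0 ≠ 0 := fun h =>
    hc0 ((map_eq_zero (algebraMap Qbar (LaurentSeries Qbar))).mp h)
  have h1 : cst (c / c0) = cst c / cst c0 := map_div₀ _ _ _
  rw [h1, div_pow]
  field_simp

set_option maxHeartbeats 1000000 in
theorem yDec (hR : Stmt_RepFixP) (hD : Stmt_DeepFix) : Stmt_YDec := by
  intro p _ hp A hA M _ _ hpM T XX hCG G' H' π hle hLvl Y hY hYfix hcls hInW d hd
  have hp0 : 0 < p := hp.pos
  have hY0 : Y ≠ 0 := (hCG.isDiv Y hY).1
  -- (1) Hilbert 90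
  obtain ⟨c0, b, hc0, hb, hfix0⟩ := ORD.Dep.stmt_H90 (M * p) p G' Y hp0 hY0 hcls
  have hy0XX : algebraMap Qbar (FF (M * p)) c0 * Y * b ^ p ∈ XX := YDec_mem hCG hp0 hc0 hY hb
  have hInW0 : InW A (M * p) p (algebraMap Qbar (FF (M * p)) c0 * Y * b ^ p) := by
    obtain ⟨c, g, hc, hg, hrd⟩ := hInW
    refine ⟨c / c0, g / b, div_ne_zero hc hc0, div_ne_zero hg hb, ?_⟩
    have hb' : (b : LaurentSeries Qbar) ≠ 0 := fun h => hb (Subtype.ext h)
    rw [YDec_coe_rep, YDec_coe_div, YDec_series_id c c0 _ _ _ p hc0 hb']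
    exact hrd
  -- (2) a representative `≡ 1 mod π`
  obtain ⟨c1, g1, hc1, hc1fix, hg1, hg1fix, hCg1⟩ :=
    hR p hp A hA G' π hLvl M hpM _ hfix0 hInW0
  have hy1XX : algebraMap Qbar (FF (M * p)) c1 * (algebraMap Qbar (FF (M * p)) c0 * Y * b ^ p) *
      g1 ^ p ∈ XX := YDec_mem hCG hp0 hc1 hy0XX hg1
  have hfix1 : FixF (M * p) G' (algebraMap Qbar (FF (M * p)) c1 *
      (algebraMap Qbar (FF (M * p)) c0 * Y * b ^ p) * g1 ^ p) :=
    YDec_fix_mul (YDec_fix_mul (YDec_fix_const _ hc1fix) hfix0) (YDec_fix_pow hg1fix p)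
  -- (3) deep representative
  obtain ⟨c2, y, g2, hc2, _hc2fix, hg2, _hg2fix, hyfix, hCgy, hy1⟩ :=
    hD p hp A hA M T XX hCG G' π hLvl _ hy1XX hfix1 hCg1 d hd
  have hy0 : y ≠ 0 := by
    rintro rfl
    rw [mul_zero, zero_mul] at hy1
    have h2 : algebraMap Qbar (FF (M * p)) c1 * (algebraMap Qbar (FF (M * p)) c0 * Y * b ^ p) *
        g1 ^ p ≠ 0 :=
      mul_ne_zero (mul_ne_zero (YDec_alg_ne_zero _ hc1)
        (mul_ne_zero (mul_ne_zero (YDec_alg_ne_zero _ hc0) hY0) (pow_ne_zero p hb)))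
        (pow_ne_zero p hg1)
    exact h2 hy1
  -- (4) Kummer descent
  obtain ⟨e, he0, he⟩ := YDec_exists_root p hp0 (c2 / (c1 * c0))
    (div_ne_zero hc2 (mul_ne_zero hc1 hc0))
  have hQfix : FixF (M * p) H' (Y / y) := YDec_fix_div hYfix (YDec_fix_mono hle hyfix)
  have ha0 := YDec_alg_ne_zero (M * p) hc0
  have ha1 := YDec_alg_ne_zero (M * p) hc1
  have hQ : Y / y = (algebraMap Qbar (FF (M * p)) e * g2 / (g1 * b)) ^ p := by
    rw [div_pow, mul_pow, ← map_pow, he, map_div₀, map_mul, mul_pow]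
    rw [div_eq_div_iff hy0 (mul_ne_zero (pow_ne_zero p hg1) (pow_ne_zero p hb))]
    have h3 : algebraMap Qbar (FF (M * p)) c2 * y * g2 ^ p =
        algebraMap Qbar (FF (M * p)) c1 * (algebraMap Qbar (FF (M * p)) c0 * Y * b ^ p) * g1 ^ p :=
      hy1.symm
    field_simp
    linear_combination (-1 : FF (M * p)) * h3
  have hne : algebraMap Qbar (FF (M * p)) e * g2 / (g1 * b) ≠ 0 :=
    div_ne_zero (mul_ne_zero (YDec_alg_ne_zero _ he0) hg2) (mul_ne_zero hg1 hb)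
  obtain ⟨c, g₀, hc, _hcfix, hg₀, hg₀fix, hQ'⟩ :=
    ORD.Dep.stmt_KD (M * p) p H' (Y / y) _ hp0 hne hQfix hQ
  refine ⟨c, y, g₀, hc, hg₀, hyfix, hg₀fix, hCgy, ?_⟩
  have h4 : Y = Y / y * y := (div_mul_cancel₀ Y hy0).symm
  rw [h4, hQ']
  ring

end Fermat.Agent.MR.Field

end
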