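import Fermat.Agent.MR.Field.AOut2
import Fermat.Agent.MR.Field.Bridge
import Fermat.Agent.MR.Field.CongB
import Fermat.Agent.MR.Field.DeepFix
import Fermat.Agent.MR.Field.Dicho
import Fermat.Agent.MR.Field.GtLvl
import Fermat.Agent.MR.Field.ILvl
import Fermat.Agent.MR.Field.LiftFixP
import Fermat.Agent.MR.Field.NodePL
import Fermat.Agent.MR.Field.NodesOut
import Fermat.Agent.MR.Field.PresRs
import Fermat.Agent.MR.Field.RepFixP
import Fermat.Agent.MR.Field.Roots
import Fermat.Agent.MR.Field.TwistVal
import Fermat.Agent.MR.Field.VG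
import Fermat.Agent.MR.Field.YDec
import Fermat.Agent.MR.PL.Final
import Fermat.Agent.MR.Node.DivOf
import Fermat.Agent.MR.Node.Loc
import Fermat.Agent.MR.Node.RingR
import Fermat.Agent.MR.Node.N1
import Fermat.Agent.MR.Node.N3PL
import Fermat.Agent.MR.Node.ValA
import Fermat.Agent.MR.Node.Kill
import Fermat.Agent.MR.Node.Reg
import Fermat.Agent.MR.Node.SepUnif
import Fermat.Agent.MR.Node.FG
import Fermat.Agent.MR.Node.PtRes
import Fermat.Agent.MR.Node.PtUnif
import Fermat.Agent.MR.Node.Small

/-!
# MR / Field : the block [FIELD], unconditionally (helper66)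

`all_NodesOut : Node.Stmt_NodesOut` = Picard-Lefschetz at the nodes for the classes of `XX`.
-/

set_option synthInstance.maxHeartbeats 400000

namespace Fermat.Agent.MR.Field

theorem all_AOut : Stmt_AOut :=
  aOut3 gtLvl (dicho gtLvl iLvl) (vg bridge) roots bridge twistVal

theorem all_YDec : Stmt_YDec := yDec (repFixP liftFixP) deepFix

theorem all_CongB : Stmt_CongB := congB all_YDec PL.all_YC2 bridge twistVal

theorem all_NodePL : Stmt_NodePL :=
  nodePL all_AOut all_CongB bridge twistVal PL.all_PLA PL.all_PLC Node.divOf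

theorem all_NodeLoc : Node.Stmt_NodeLoc :=
  Node.nodeLoc (Node.ringR Node.ptRes) Node.ringR2 (Node.n1 Node.ptUnif Node.small)
    (Node.n3PL₁ Node.ptUnif (Node.ringR Node.ptRes))
    (Node.n3PL₂ Node.ptUnif (Node.ringR Node.ptRes) Node.ringR2) Node.valA
    (Node.kill Node.ptRes (Node.ringR Node.ptRes)) Node.reg Node.sepUnif Node.fg

/-- **[FIELD]**, unconditionally. -/
theorem all_NodesOut : Node.Stmt_NodesOut :=
  nodesOut all_NodePL (presRs bridge) all_NodeLoc

end Fermat.Agent.MR.Field
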