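import Fermat.Agent.MR.Skel.Interface
import Fermat.Agent.MR.PL.Interface3
import Fermat.Agent.MR.Node.Defs
import Fermat.Agent.RED.Defs

/-!
# MR / Field : the Galois slice of [RES] (architect helper66).  Definitions.

`I = A.inertiaSubgroupIn ℚ`, `Gt A p = {s ∈ I : s fixes μ_p}`, `Hb A p β = {s ∈ Gt : s β = β}`,
`fixSub N H = (FF N)^H`.  Semilinear automorphisms of `FF N` : `RED.gal N s`
(`RED.gal N s • u = ES.Mid.gal N s u` by `rfl`).
-/

set_option autoImplicit false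
set_option synthInstance.maxHeartbeats 400000

noncomputable section

namespace Fermat.Agent.MR.Field

open ModularCurve AlgebraicCurve
open Fermat.Agent.S24 (Qbar FF)
open Fermat.Agent.ES.Mid (GQ gal)
open Fermat.Agent.ORD.Dep (FixF FixK ActsMu)

/-- `G_t` : the elements of the inertia group fixing the `p`-th roots of unity. -/
def Gt (A : ValuationSubring Qbar) (p : ℕ) : Subgroup GQ where
  carrier := {s | s ∈ A.inertiaSubgroupIn ℚ ∧ ∀ z : Qbar, z ^ p = 1 → s z = z}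
  mul_mem' := by
    rintro s t ⟨hs, hs'⟩ ⟨ht, ht'⟩
    refine ⟨mul_mem hs ht, fun z hz => ?_⟩
    rw [AlgEquiv.mul_apply, ht' z hz, hs' z hz]
  one_mem' := ⟨one_mem _, fun _ _ => rfl⟩
  inv_mem' := by
    rintro s ⟨hs, hs'⟩
    refine ⟨inv_mem hs, fun z hz => ?_⟩
    have h := hs' z hz
    calc s⁻¹ z = s⁻¹ (s z) := by rw [h]
      _ = z := AlgEquiv.symm_apply_apply s z

theorem mem_Gt {A : ValuationSubring Qbar} {p : ℕ} {s : GQ} :
    s ∈ Gt A p ↔ s ∈ A.inertiaSubgroupIn ℚ ∧ ActsMu p s 1 := by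
  constructor
  · rintro ⟨h1, h2⟩
    exact ⟨h1, fun z hz => by rw [pow_one]; exact h2 z hz⟩
  · rintro ⟨h1, h2⟩
    exact ⟨h1, fun z hz => by have := h2 z hz; rwa [pow_one] at this⟩

/-- `H` : the elements of `G_t` fixing `β`. -/
def Hb (A : ValuationSubring Qbar) (p : ℕ) (β : Qbar) : Subgroup GQ where
  carrier := {s | s ∈ Gt A p ∧ s β = β}
  mul_mem' := by
    rintro s t ⟨hs, hs'⟩ ⟨ht, ht'⟩
    refine ⟨mul_mem hs ht, ?_⟩
    rw [AlgEquiv.mul_apply, ht', hs']
  one_mem' := ⟨one_mem _, rfl⟩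
  inv_mem' := by
    rintro s ⟨hs, hs'⟩
    refine ⟨inv_mem hs, ?_⟩
    calc s⁻¹ β = s⁻¹ (s β) := by rw [hs']
      _ = β := AlgEquiv.symm_apply_apply s β

theorem mem_Hb {A : ValuationSubring Qbar} {p : ℕ} {β : Qbar} {s : GQ} :
    s ∈ Hb A p β ↔ s ∈ Gt A p ∧ s β = β := Iff.rfl

theorem Hb_le_Gt (A : ValuationSubring Qbar) (p : ℕ) (β : Qbar) : Hb A p β ≤ Gt A p :=
  fun _ h => h.1

theorem Gt_le_inertia (A : ValuationSubring Qbar) (p : ℕ) : Gt A p ≤ A.inertiaSubgroupIn ℚ :=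
  fun _ h => h.1

/-- the fixed field `(FF N)^H`. -/
def fixSub (N : ℕ) (H : Subgroup GQ) : Subfield (FF N) where
  carrier := {x | FixF N H x}
  mul_mem' := fun ha hb s hs => by rw [map_mul, ha s hs, hb s hs]
  one_mem' := fun s _ => map_one _
  add_mem' := fun ha hb s hs => by rw [map_add, ha s hs, hb s hs]
  zero_mem' := fun s _ => map_zero _
  neg_mem' := fun ha s hs => by rw [map_neg, ha s hs]
  inv_mem' := fun _ ha s hs => by rw [map_inv₀, ha s hs]

theorem mem_fixSub {N : ℕ} {H : Subgroup GQ} {x : FF N} : x ∈ fixSub N H ↔ FixF N H x := Iff.rfl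

theorem gal_smul (N : ℕ) (s : GQ) (u : FF N) : RED.gal N s • u = gal N s u := rfl

theorem baseAut_gal (N : ℕ) (s : GQ) (c : Qbar) :
    SemilinearAut.baseAut (RED.gal N s) c = s c := rfl

/-- the set of semilinear automorphisms attached to a subgroup of `G_ℚ`. -/
def autSet (N : ℕ) (H : Subgroup GQ) : Set (SemilinearAut Qbar (FF N)) :=
  {h | ∃ s ∈ H, h = RED.gal N s}

end Fermat.Agent.MR.Field

end
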