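import Fermat.Agent.MR.Field.InterfaceB

/-!
# MR / Field : interface, block A split (architect helper66)

`Stmt_AOut` (InterfaceB) from `Stmt_GtLvl`, `Stmt_ILvl`, `Stmt_Dicho`, `Stmt_VG`, `Stmt_Roots`,
`Stmt_FD`, `Stmt_Bridge`, `Stmt_TwistVal`.
-/

set_option autoImplicit false
set_option synthInstance.maxHeartbeats 400000

noncomputable section

namespace Fermat.Agent.MR.Field

open ModularCurve AlgebraicCurve
open Fermat.Agent.S24 (Qbar FF)
open Fermat.Agent.ES.Mid (GQ gal IsDiv)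
open Fermat.Agent.INJ (RedData)
open Fermat.Agent.INJ.Inst (kA)
open Fermat.Agent.ORD.Dep (cst rd GO Cg InW ActsMu FixF FixK Lvl)
open Fermat.Agent.BR.Inst (IsGaussS twist)

/-- (A1) `1 - ζ` is a uniformiser of the level `G_t`. -/
def Stmt_GtLvl : Prop :=
  ∀ (p : ℕ), p.Prime → p ≠ 2 → ∀ A : ValuationSubring Qbar, A.LiesOverPrime p →
  ∀ ζ : Qbar, IsPrimitiveRoot ζ p →
    Lvl A (Gt A p) (1 - ζ) ∧ A.valuation (p : Qbar) = A.valuation (1 - ζ) ^ (p - 1)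

/-- (A2) `p` is a uniformiser of the inertia field. -/
def Stmt_ILvl : Prop :=
  ∀ (p : ℕ), p.Prime → ∀ A : ValuationSubring Qbar, A.LiesOverPrime p →
    Lvl A (A.inertiaSubgroupIn ℚ) (p : Qbar)

/-- (A3) the dichotomy: `G_t` fixes `β`, or `K_t(β) / K_t` is "peu ramifiée, not split". -/
def Stmt_Dicho : Prop :=
  ∀ (p : ℕ), p.Prime → p ≠ 2 → ∀ A : ValuationSubring Qbar, A.LiesOverPrime p →
  ∀ β d₀ : Qbar, PeuData A p β d₀ →
    (∀ s ∈ Gt A p, s β = β) ∨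
      ∃ σ ∈ Gt A p, ∃ ζ : Qbar, IsPrimitiveRoot ζ p ∧ σ β = ζ * β ∧
        A.valuation ((d₀ - 1) / (p : Qbar)) = 1

/-- (A4) the value group of `(FF N)^H` for the Gauss norm. -/
def Stmt_VG : Prop :=
  ∀ (A : ValuationSubring Qbar) (H : Subgroup GQ) (π : Qbar), Lvl A H π →
  ∀ (N : ℕ) [NeZero N]
    (L : IntermediateField (kA A) (LaurentSeries (kA A))) (D : RedData Qbar (FF N) (kA A) L),
    IsGaussS N A L D → ∀ x : FF N, x ≠ 0 → FixF N H x →
      ∃ m : ℤ, D.O.valuation x = D.O.valuation (algebraMap Qbar (FF N) π) ^ m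

/-- (A5) the inertia field has a perfect residue field. -/
def Stmt_Roots : Prop :=
  ∀ (p : ℕ), p.Prime → ∀ A : ValuationSubring Qbar, A.LiesOverPrime p →
  ∀ (N : ℕ) (H : Subgroup GQ), H ≤ A.inertiaSubgroupIn ℚ → PL.RootsMod p A (fixSub N H)

/-- (A6) `PL.FieldData` for any norm `Wv` on `FF N` which is Gauss, invariant under inertia, and with
value group `|1 - ζ|^ℤ` on `(FF N)^{G_t}`. -/
def Stmt_FD : Prop :=
  ∀ (p : ℕ), p.Prime → p ≠ 2 → ∀ A : ValuationSubring Qbar, A.LiesOverPrime p →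
  ∀ (N : ℕ) (Wv : ValuationSubring (FF N)), PL.Gauss A Wv →
    (∀ s ∈ A.inertiaSubgroupIn ℚ, ∀ x : FF N, Wv.valuation (gal N s x) = Wv.valuation x) →
  ∀ (β ζ a₀ : Qbar) (σ : GQ), σ ∈ Gt A p → IsPrimitiveRoot ζ p → σ β = ζ * β →
    β ^ p = 1 + (p : Qbar) * a₀ → A.valuation a₀ = 1 →
    (∀ x : FF N, x ≠ 0 → FixF N (Gt A p) x →
      ∃ m : ℤ, Wv.valuation x = Wv.valuation (algebraMap Qbar (FF N) (1 - ζ)) ^ m) →
    PL.FieldData p A Wv (RED.gal N σ) (fixSub N (Hb A p β)) ζ β a₀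

end Fermat.Agent.MR.Field

end
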