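import Fermat.Agent.MR.Field.Defs
import Fermat.Agent.BR.Inst.Defs

/-!
# MR / Field : interface (architect helper66)

Goal: `Stmt_NodePL` = "Theorem PL for the classes of `XX`": from `Skel.ResHyp` and a family of nodes
`(R s, n s)` (with `PL.LocData`, `PL.N3`, preserved by inertia) to the `PL.Shape` of a representative
`c * u * h ^ p` of every `u ∈ XX`, with an exponent `δ + p m` whose `δ` does not depend on the node.

* Block A (fields; sub-architect helper14): `Stmt_Bridge`, `Stmt_TwistVal`, `Stmt_PresRs`, `Stmt_AOut`.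
* Block B (classes): `Stmt_LiftFixP`, `Stmt_RepFixP`, `Stmt_DeepFix`, `Stmt_YDec`, `Stmt_CongB`,
  `Stmt_NodePL`.

Toolbox (all UNCONDITIONAL, `Fermat.Agent.ORD.Dep.All`): `stmt_H90`, `stmt_KD`, `stmt_GOApi`,
`stmt_GaussDisc'`, `stmt_Teich`, `stmt_Tame`, `stmt_Unr`, `stmt_UnifW`, `stmt_Disc`, `all_LiftFix`,
`all_RepFix`, `stmt_Deepen`; `ORD.NM` : `Stmt_UForm`, `Stmt_UMem`.
-/

set_option autoImplicit false
set_option synthInstance.maxHeartbeats 400000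

noncomputable section

namespace Fermat.Agent.MR.Field

open ModularCurve AlgebraicCurve
open Fermat.Agent.S24 (Qbar FF)
open Fermat.Agent.ES.Mid (GQ gal IsDiv)
open Fermat.Agent.INJ (RedData)
open Fermat.Agent.INJ.Inst (kA)
open Fermat.Agent.ORD.Dep (cst rd GO Cg InW ActsMu FixF FixK Lvl)
open Fermat.Agent.BR.Inst (IsGaussS twist)

/-! ### Block A : fields, norms, Galois -/

/-- (A-BRIDGE) the Gauss datum `D` in the language `GO`, `rd`, `Cg` of `ORD/Dep`; inertia acts by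
isometries and trivially on the reduction. -/
def Stmt_Bridge : Prop :=
  ∀ (N : ℕ) [NeZero N] (A : ValuationSubring Qbar)
    (L : IntermediateField (kA A) (LaurentSeries (kA A))) (D : RedData Qbar (FF N) (kA A) L),
    IsGaussS N A L D →
    (∀ x : FF N, x ∈ D.O ↔ GO A (x : LaurentSeries Qbar)) ∧
    (∀ x : FF N, x ∈ D.O → ((D.rd x : L) : LaurentSeries (kA A)) = rd A (x : LaurentSeries Qbar)) ∧
    (∀ (c : Qbar) (x : FF N), Cg A c (x : LaurentSeries Qbar) 1 →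
      D.O.valuation (x - 1) ≤ D.O.valuation (algebraMap Qbar (FF N) c)) ∧
    (∀ s ∈ A.inertiaSubgroupIn ℚ, ∀ x : FF N, D.O.valuation (gal N s x) = D.O.valuation x) ∧
    (∀ s ∈ A.inertiaSubgroupIn ℚ, ∀ x ∈ D.O, D.rd (gal N s x) = D.rd x)

/-- (A-TWIST) the norm of the twisted datum. -/
def Stmt_TwistVal : Prop :=
  ∀ (K F k Fb : Type) [Field K] [Field F] [Algebra K F] [Field k] [Field Fb] [Algebra k Fb]
    (D : RedData K F k Fb) (W : F ≃ₐ[K] F) (x y : F),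
    ((twist D W).O.valuation x ≤ (twist D W).O.valuation y ↔
      D.O.valuation (W x) ≤ D.O.valuation (W y)) ∧
    ((twist D W).O.valuation x < (twist D W).O.valuation y ↔
      D.O.valuation (W x) < D.O.valuation (W y)) ∧
    ((twist D W).O.valuation x = (twist D W).O.valuation y ↔
      D.O.valuation (W x) = D.O.valuation (W y))

/-- (A-PRESR) inertia preserves the local rings `Node.Rs`. -/
def Stmt_PresRs : Prop :=
  ∀ (N : ℕ) [NeZero N] (A : ValuationSubring Qbar)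
    (L : IntermediateField (kA A) (LaurentSeries (kA A))) (D : RedData Qbar (FF N) (kA A) L),
    IsGaussS N A L D →
  ∀ W : FF N ≃ₐ[Qbar] FF N, (∀ (σ : GQ) (u : FF N), W (gal N σ u) = gal N σ (W u)) →
  ∀ s ∈ A.inertiaSubgroupIn ℚ, ∀ Tc : FF N, gal N s Tc = Tc → ∀ x₁ : ValuationSubring L,
    PL.PresR (RED.gal N s) (Node.Rs D (twist D W) Tc x₁)

/-- the data `(β, d₀)` of `Skel.PeuCG`. -/
structure PeuData (A : ValuationSubring Qbar) (p : ℕ) (β d₀ : Qbar) : Prop where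
  pow : β ^ p = d₀
  mem : d₀ ∈ A
  inv_mem : d₀⁻¹ ∈ A
  one : A.valuation (d₀ - 1) < 1
  fix : ∀ σ ∈ A.inertiaSubgroupIn ℚ, σ d₀ = d₀

/-- (A-OUT) THE OUTPUT OF BLOCK A : the level `G_t` has uniformiser `1 - ζ`, and either `G_t` fixes `β`
or we have `PL.FieldData` for both norms. -/
def Stmt_AOut : Prop :=
  ∀ (p : ℕ), p.Prime → 5 ≤ p → ∀ A : ValuationSubring Qbar, A.LiesOverPrime p →
  ∀ (N : ℕ) [NeZero N]
    (L : IntermediateField (kA A) (LaurentSeries (kA A))) (D : RedData Qbar (FF N) (kA A) L),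
    IsGaussS N A L D →
  ∀ W : FF N ≃ₐ[Qbar] FF N, (∀ (σ : GQ) (u : FF N), W (gal N σ u) = gal N σ (W u)) →
  ∀ β d₀ : Qbar, PeuData A p β d₀ →
    ∃ ζ : Qbar, IsPrimitiveRoot ζ p ∧ Lvl A (Gt A p) (1 - ζ) ∧
      A.valuation (p : Qbar) = A.valuation (1 - ζ) ^ (p - 1) ∧
      ((∀ s ∈ Gt A p, s β = β) ∨
        ∃ σ ∈ Gt A p, ∃ a₀ : Qbar,
          PL.FieldData p A D.O (RED.gal N σ) (fixSub N (Hb A p β)) ζ β a₀ ∧
          PL.FieldData p A (twist D W).O (RED.gal N σ) (fixSub N (Hb A p β)) ζ β a₀ ∧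
          PL.RootsMod p A (fixSub N (Hb A p β)))

/-! ### Block B : classes -/

/-- (B-LIFT) every element of the residue field of `FF (M p)` at `v_∞` lifts to `FF (M p)^I`. -/
def Stmt_LiftFixP : Prop :=
  ∀ (p : ℕ), p.Prime → ∀ A : ValuationSubring Qbar, A.LiesOverPrime p →
  ∀ (M : ℕ) [NeZero M] [NeZero (M * p)], ¬ p ∣ M →
  ∀ x : FF (M * p), GO A (x : LaurentSeries Qbar) →
    ∃ y : FF (M * p), FixF (M * p) (A.inertiaSubgroupIn ℚ) y ∧ GO A (y : LaurentSeries Qbar) ∧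
      rd A (y : LaurentSeries Qbar) = rd A (x : LaurentSeries Qbar)

/-- (B-REP) `ORD.Dep.Stmt_RepFix` at the level `M p`. -/
def Stmt_RepFixP : Prop :=
  ∀ (p : ℕ), p.Prime → ∀ A : ValuationSubring Qbar, A.LiesOverPrime p →
  ∀ (H : Subgroup GQ) (π : Qbar), Lvl A H π →
  ∀ (M : ℕ) [NeZero M] [NeZero (M * p)], ¬ p ∣ M →
  ∀ u : FF (M * p), FixF (M * p) H u → InW A (M * p) p u →
    ∃ (c : Qbar) (g : FF (M * p)), c ≠ 0 ∧ FixK H c ∧ g ≠ 0 ∧ FixF (M * p) H g ∧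
      Cg A π (cst c * (u : LaurentSeries Qbar) * (g : LaurentSeries Qbar) ^ p) 1

/-- (B-DEEP) a rational representative `≡ 1 mod π` of a `p`-new class has rational representatives
of arbitrary depth. -/
def Stmt_DeepFix : Prop :=
  ∀ (p : ℕ) [NeZero p], p.Prime → ∀ A : ValuationSubring Qbar, A.LiesOverPrime p →
  ∀ (M : ℕ) [NeZero (M * p)] (T : Skel.Setting p M) (XX : Set (FF (M * p))),
    Skel.IsCG p M T XX →
  ∀ (H : Subgroup GQ) (π : Qbar), Lvl A H π →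
  ∀ y₁ ∈ XX, FixF (M * p) H y₁ → Cg A π (y₁ : LaurentSeries Qbar) 1 → ∀ d : Qbar, d ≠ 0 →
    ∃ (c : Qbar) (y g : FF (M * p)), c ≠ 0 ∧ FixK H c ∧ g ≠ 0 ∧ FixF (M * p) H g ∧
      FixF (M * p) H y ∧ Cg A d (y : LaurentSeries Qbar) 1 ∧
      y₁ = algebraMap Qbar (FF (M * p)) c * y * g ^ p

/-- (B-YDEC) `Y ∈ XX ∩ W_∞`, rational over `H'`, with class fixed by `G' ⊇ H'` :
`Y = const * y * g ^ p`, `y` rational over `G'` and deep, `g` rational over `H'`. -/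
def Stmt_YDec : Prop :=
  ∀ (p : ℕ) [NeZero p], p.Prime → ∀ A : ValuationSubring Qbar, A.LiesOverPrime p →
  ∀ (M : ℕ) [NeZero M] [NeZero (M * p)], ¬ p ∣ M →
  ∀ (T : Skel.Setting p M) (XX : Set (FF (M * p))), Skel.IsCG p M T XX →
  ∀ (G' H' : Subgroup GQ) (π : Qbar), H' ≤ G' → Lvl A G' π →
  ∀ Y ∈ XX, FixF (M * p) H' Y →
    (∀ s ∈ G', ∃ g : FF (M * p), gal (M * p) s Y = Y * g ^ p) → InW A (M * p) p Y →
  ∀ d : Qbar, d ≠ 0 →
    ∃ (c : Qbar) (y g : FF (M * p)), c ≠ 0 ∧ g ≠ 0 ∧ FixF (M * p) G' y ∧ FixF (M * p) H' g ∧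
      Cg A d (y : LaurentSeries Qbar) 1 ∧ Y = algebraMap Qbar (FF (M * p)) c * y * g ^ p

/-- (B-CONG) case B : `σ u / u` is a constant modulo `< |1 - ζ|` for both norms. -/
def Stmt_CongB : Prop :=
  ∀ (p : ℕ) [NeZero p], p.Prime → 5 ≤ p → ∀ A : ValuationSubring Qbar, A.LiesOverPrime p →
  ∀ (M : ℕ) [NeZero M] [NeZero (M * p)], ¬ p ∣ M →
  ∀ (T : Skel.Setting p M) (XX : Set (FF (M * p))), Skel.ResHyp A p M T XX →
  ∀ (L : IntermediateField (kA A) (LaurentSeries (kA A)))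
    (D : RedData Qbar (FF (M * p)) (kA A) L), IsGaussS (M * p) A L D →
  ∀ (β ζ a₀ : Qbar) (σ : GQ), σ ∈ Gt A p → Lvl A (Gt A p) (1 - ζ) →
    PL.FieldData p A D.O (RED.gal (M * p) σ) (fixSub (M * p) (Hb A p β)) ζ β a₀ →
    PL.FieldData p A (twist D T.W).O (RED.gal (M * p) σ) (fixSub (M * p) (Hb A p β)) ζ β a₀ →
    PL.RootsMod p A (fixSub (M * p) (Hb A p β)) →
  ∀ u ∈ XX, FixF (M * p) (Hb A p β) u →
    ∃ C₁ C₂ : Qbar, A.valuation C₁ = 1 ∧ A.valuation C₂ = 1 ∧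
      D.O.valuation (RED.gal (M * p) σ • u / u - algebraMap Qbar (FF (M * p)) C₁) <
        D.O.valuation (algebraMap Qbar (FF (M * p)) (1 - ζ)) ∧
      (twist D T.W).O.valuation (RED.gal (M * p) σ • u / u - algebraMap Qbar (FF (M * p)) C₂) <
        (twist D T.W).O.valuation (algebraMap Qbar (FF (M * p)) (1 - ζ))

/-- **OUTPUT OF [FIELD]** : Theorem PL for the classes of `XX`. -/
def Stmt_NodePL : Prop :=
  ∀ (p : ℕ) [NeZero p], p.Prime → 5 ≤ p → ∀ A : ValuationSubring Qbar, A.LiesOverPrime p →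
  ∀ (M : ℕ) [NeZero M] [NeZero (M * p)], ¬ p ∣ M →
  ∀ (T : Skel.Setting p M) (XX : Set (FF (M * p))), Skel.ResHyp A p M T XX →
  ∀ (L : IntermediateField (kA A) (LaurentSeries (kA A)))
    (D : RedData Qbar (FF (M * p)) (kA A) L), IsGaussS (M * p) A L D →
  ∀ (a b : FF (M * p)) (ι : Type) (R : ι → Subring (FF (M * p))) (n : ι → Set (FF (M * p))),
    PL.Setting p A D.O (twist D T.W).O a b → PL.ResK Qbar (FF (M * p)) →
    (∀ s, PL.LocData A D.O (twist D T.W).O a b (R s) (n s)) →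
    (∀ s, PL.N3 (twist D T.W).O a (R s) (n s)) →
    (∀ τ ∈ A.inertiaSubgroupIn ℚ, gal (M * p) τ a = a ∧ gal (M * p) τ b = b) →
    (∀ τ ∈ A.inertiaSubgroupIn ℚ, ∀ s, PL.PresR (RED.gal (M * p) τ) (R s)) →
  ∀ u ∈ XX, ∃ (c : Qbar) (h : FF (M * p)), c ≠ 0 ∧ h ≠ 0 ∧
    ∃ δ : ℤ, ∀ s, ∃ m : ℤ,
      PL.Shape Qbar D.O b (R s) (n s) (algebraMap Qbar (FF (M * p)) c * u * h ^ p) (δ + p * m)

end Fermat.Agent.MR.Field

end
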