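import Fermat.Agent.MR.Field.InterfaceA
import Fermat.Agent.ORD.Dep.All

/-!
# MR / Field : (A4) the value group of `(FF N)^H` for the Gauss norm (`Stmt_VG`).
-/

set_option autoImplicit false
set_option synthInstance.maxHeartbeats 400000

noncomputable section

namespace Fermat.Agent.MR.Field

open ModularCurve AlgebraicCurve
open Fermat.Agent.S24 (Qbar FF)
open Fermat.Agent.ES.Mid (GQ gal IsDiv)
open Fermat.Agent.INJ (RedData)
open Fermat.Agent.INJ.Inst (kA)
open Fermat.Agent.ORD.Dep (cst rd GO Cg InW ActsMu FixF FixK Lvl)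
open Fermat.Agent.BR.Inst (IsGaussS twist)

theorem vg (hB : Stmt_Bridge) : Stmt_VG := by
  intro A H π hL N _ L D hD x hx hfix
  obtain ⟨h1, h2, -, -, -⟩ := hB N A L D hD
  obtain ⟨n, hGO, hrd⟩ := Fermat.Agent.ORD.Dep.stmt_GaussDisc' A H π hL N x hx hfix
  have hπ : π ≠ 0 := hL.sm.1
  set y : FF N := algebraMap Qbar (FF N) (π ^ (-n)) * x with hy
  have hyc : (y : LaurentSeries Qbar) = cst (π ^ (-n)) * (x : LaurentSeries Qbar) := rfl
  have hyO : y ∈ D.O := (h1 y).2 (by rw [hyc]; exact hGO)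
  have hyrd : D.rd y ≠ 0 := by
    intro h0
    have := h2 y hyO
    rw [h0, hyc] at this
    exact hrd this.symm
  have hyinv : y⁻¹ ∈ D.O := RedData.inv_mem_of_rd_ne_zero hyrd
  have hy0 : y ≠ 0 := by
    intro h0
    rw [h0] at hyrd
    exact hyrd RedData.rd_zero
  have hv1 : D.O.valuation y = 1 := by
    apply le_antisymm ((ValuationSubring.valuation_le_one_iff _ _).2 hyO)
    have := (ValuationSubring.valuation_le_one_iff _ _).2 hyinv
    rw [map_inv₀] at this
    exact (inv_le_one₀ (zero_lt_iff.2 ((map_ne_zero _).2 hy0))).1 this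
  have hπv : D.O.valuation (algebraMap Qbar (FF N) π) ≠ 0 :=
    (map_ne_zero _).2 ((map_ne_zero _).2 hπ)
  refine ⟨n, ?_⟩
  rw [hy, map_mul, map_zpow₀, map_zpow₀, zpow_neg] at hv1
  rw [← one_mul (D.O.valuation x), ← mul_inv_cancel₀ (zpow_ne_zero n hπv), mul_assoc, hv1, mul_one]

end Fermat.Agent.MR.Field

end
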